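import Mathlib
import Fermat.Prelude.Def_ModularCurve_IgusaScheme
import Fermat.Prelude.Def_ModularCurve_X0ModL

set_option autoImplicit false
set_option linter.unusedSectionVars false

noncomputable section

namespace Fermat.Agent.S28.H806

open ModularCurve

variable (ℓ : ℕ) [Fact ℓ.Prime]

theorem den_cast_ne_zero (x : ↥(GaloisRep.ratLocalizedAt ℓ)) : ((x : ℚ).den : ZMod ℓ) ≠ 0 := by
  intro h
  rw [ZMod.natCast_eq_zero_iff] at h
  have hx : (x : ℚ).den.Coprime ℓ := x.2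
  have := Nat.Coprime.eq_one_of_dvd hx.symm h
  exact (Fact.out : ℓ.Prime).one_lt.ne' this

/-- Reduction `ℤ_(ℓ) → 𝔽_ℓ`. -/
def resZl : ↥(GaloisRep.ratLocalizedAt ℓ) →+* ZMod ℓ where
  toFun x := ((x : ℚ) : ZMod ℓ)
  map_one' := by simp
  map_mul' x y := Rat.cast_mul_of_ne_zero (den_cast_ne_zero ℓ x) (den_cast_ne_zero ℓ y)
  map_zero' := by simp
  map_add' x y := Rat.cast_add_of_ne_zero (den_cast_ne_zero ℓ x) (den_cast_ne_zero ℓ y)

theorem resZl_apply (x : ↥(GaloisRep.ratLocalizedAt ℓ)) : resZl ℓ x = ((x : ℚ) : ZMod ℓ) := rfl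

theorem resZl_surjective : Function.Surjective (resZl ℓ) := by
  intro a
  refine ⟨((ZMod.val a : ℕ) : ↥(GaloisRep.ratLocalizedAt ℓ)), ?_⟩
  rw [map_natCast]
  exact ZMod.natCast_zmod_val a

theorem resZl_eq_zero_iff (x : ↥(GaloisRep.ratLocalizedAt ℓ)) :
    resZl ℓ x = 0 ↔ ∃ y : ↥(GaloisRep.ratLocalizedAt ℓ), x = (ℓ : ↥(GaloisRep.ratLocalizedAt ℓ)) * y := by
  constructor
  · intro h
    rw [resZl_apply, Rat.cast_def, div_eq_zero_iff] at h
    rcases h with h | h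
    · rw [ZMod.intCast_zmod_eq_zero_iff_dvd] at h
      obtain ⟨m, hm⟩ := h
      have hden : ((x : ℚ) / ℓ).den.Coprime ℓ := by
        have hx : (x : ℚ) / ℓ = Rat.divInt m (x : ℚ).den := by
          have hℓ : (ℓ : ℚ) ≠ 0 := by exact_mod_cast (Fact.out : ℓ.Prime).ne_zero
          rw [Rat.divInt_eq_div, div_eq_iff hℓ]
          conv_lhs => rw [← Rat.num_div_den (x : ℚ)]
          rw [hm]; push_cast; field_simp
        rw [hx]
        have hdvd : (Rat.divInt m (x : ℚ).den).den ∣ (x : ℚ).den := by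
          have := Rat.den_dvd m ((x : ℚ).den : ℤ)
          exact_mod_cast this
        exact Nat.Coprime.coprime_dvd_left hdvd x.2
      refine ⟨⟨(x : ℚ) / ℓ, hden⟩, Subtype.ext ?_⟩
      have hℓ : (ℓ : ℚ) ≠ 0 := by exact_mod_cast (Fact.out : ℓ.Prime).ne_zero
      push_cast
      field_simp
    · exact absurd h (den_cast_ne_zero ℓ x)
  · rintro ⟨y, rfl⟩
    rw [map_mul, map_natCast, ZMod.natCast_self, zero_mul]

theorem ell_ne_zero : (ℓ : ↥(GaloisRep.ratLocalizedAt ℓ)) ≠ 0 := by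
  intro h
  have := congrArg (Subtype.val) h
  simp only [SubringClass.coe_natCast, ZeroMemClass.coe_zero, Nat.cast_eq_zero] at this
  exact (Fact.out : ℓ.Prime).ne_zero this

/-! ### Laurent series with `ℤ_(ℓ)`-coefficients -/

/-- The inclusion `ℤ_(ℓ)((q)) → ℚ((q))`. -/
def incl : LaurentSeries ↥(GaloisRep.ratLocalizedAt ℓ) →+* LaurentSeries ℚ :=
  coeffMap (GaloisRep.ratLocalizedAt ℓ).subtype

@[simp] theorem incl_coeff (a : LaurentSeries ↥(GaloisRep.ratLocalizedAt ℓ)) (n : ℤ) :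
    (incl ℓ a).coeff n = (a.coeff n : ℚ) := rfl

theorem incl_injective : Function.Injective (incl ℓ) := by
  intro a b h
  ext n
  have := congrArg (fun x => x.coeff n) h
  simpa using this

/-- Coefficientwise reduction `ℤ_(ℓ)((q)) → 𝔽_ℓ((q))`. -/
def redL : LaurentSeries ↥(GaloisRep.ratLocalizedAt ℓ) →+* LaurentSeries (ZMod ℓ) :=
  coeffMap (resZl ℓ)

@[simp] theorem redL_coeff (a : LaurentSeries ↥(GaloisRep.ratLocalizedAt ℓ)) (n : ℤ) :
    (redL ℓ a).coeff n = resZl ℓ (a.coeff n) := rfl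

/-- Division by `ℓ` on `ℤ_(ℓ)` (junk value `0` on non-multiples). -/
def divEll : ZeroHom ↥(GaloisRep.ratLocalizedAt ℓ) ↥(GaloisRep.ratLocalizedAt ℓ) where
  toFun x := by
    classical
    exact if h : ∃ y : ↥(GaloisRep.ratLocalizedAt ℓ), x = (ℓ : ↥(GaloisRep.ratLocalizedAt ℓ)) * y
      then h.choose else 0
  map_zero' := by
    classical
    have h : ∃ y : ↥(GaloisRep.ratLocalizedAt ℓ), (0 : ↥(GaloisRep.ratLocalizedAt ℓ)) = (ℓ : ↥(GaloisRep.ratLocalizedAt ℓ)) * y := ⟨0, by simp⟩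
    simp only [dif_pos h]
    have := h.choose_spec
    rcases mul_eq_zero.mp this.symm with h' | h'
    · exact absurd h' (ell_ne_zero ℓ)
    · exact h'

theorem ell_mul_divEll {x : ↥(GaloisRep.ratLocalizedAt ℓ)} (hx : resZl ℓ x = 0) :
    (ℓ : ↥(GaloisRep.ratLocalizedAt ℓ)) * divEll ℓ x = x := by
  classical
  have h := (resZl_eq_zero_iff ℓ x).mp hx
  show (ℓ : ↥(GaloisRep.ratLocalizedAt ℓ)) * (if h : ∃ y : ↥(GaloisRep.ratLocalizedAt ℓ), x = (ℓ : ↥(GaloisRep.ratLocalizedAt ℓ)) * y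
      then h.choose else 0) = x
  rw [dif_pos h]
  exact h.choose_spec.symm

theorem redL_eq_zero_iff (a : LaurentSeries ↥(GaloisRep.ratLocalizedAt ℓ)) :
    redL ℓ a = 0 ↔ ∃ a' : LaurentSeries ↥(GaloisRep.ratLocalizedAt ℓ),
      a = HahnSeries.C (ℓ : ↥(GaloisRep.ratLocalizedAt ℓ)) * a' := by
  constructor
  · intro h
    refine ⟨a.map (divEll ℓ), ?_⟩
    ext n
    rw [HahnSeries.C_mul_eq_smul, HahnSeries.coeff_smul, HahnSeries.map_coeff, smul_eq_mul,
      ell_mul_divEll]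
    have := congrArg (fun x => x.coeff n) h
    simpa using this
  · rintro ⟨a', rfl⟩
    ext n
    rw [HahnSeries.C_mul_eq_smul, redL_coeff, HahnSeries.coeff_smul, smul_eq_mul, map_mul,
      map_natCast, ZMod.natCast_self, zero_mul, HahnSeries.coeff_zero]


theorem redL_C_ell : redL ℓ (HahnSeries.C (ℓ : ↥(GaloisRep.ratLocalizedAt ℓ))) = 0 :=
  (redL_eq_zero_iff ℓ _).mpr ⟨1, by rw [mul_one]⟩

theorem incl_C_ell : incl ℓ (HahnSeries.C (ℓ : ↥(GaloisRep.ratLocalizedAt ℓ))) =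
    (ℓ : LaurentSeries ℚ) := by
  rw [map_natCast, map_natCast]

theorem ellQ_ne_zero : (ℓ : LaurentSeries ℚ) ≠ 0 := by
  have h : (ℓ : ℚ) ≠ 0 := by exact_mod_cast (Fact.out : ℓ.Prime).ne_zero
  have e : (ℓ : LaurentSeries ℚ) = HahnSeries.C (ℓ : ℚ) := (map_natCast _ _).symm
  rw [e]
  intro h0
  exact h (HahnSeries.C_injective (by rw [h0, map_zero]))

theorem redL_cross {a b c d : LaurentSeries ↥(GaloisRep.ratLocalizedAt ℓ)}
    (h : incl ℓ a * incl ℓ d = incl ℓ c * incl ℓ b) :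
    redL ℓ a * redL ℓ d = redL ℓ c * redL ℓ b := by
  rw [← map_mul, ← map_mul] at h
  rw [← map_mul, ← map_mul, incl_injective ℓ h]

/-! ### The Gauss valuation ring -/

/-- The Gauss valuation ring: the localisation of `ℤ_(ℓ)((q))` at the prime `(ℓ)`, realised
inside `ℚ((q))`. -/
def gaussRing : Subring (LaurentSeries ℚ) where
  carrier := {x | ∃ a b : LaurentSeries ↥(GaloisRep.ratLocalizedAt ℓ),
    redL ℓ b ≠ 0 ∧ x * incl ℓ b = incl ℓ a}
  mul_mem' := by
    rintro x y ⟨a, b, hb, hab⟩ ⟨c, d, hd, hcd⟩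
    refine ⟨a * c, b * d, ?_, ?_⟩
    · rw [map_mul]; exact mul_ne_zero hb hd
    · rw [map_mul, map_mul, ← hab, ← hcd]; ring
  one_mem' := ⟨1, 1, by simp, by simp⟩
  add_mem' := by
    rintro x y ⟨a, b, hb, hab⟩ ⟨c, d, hd, hcd⟩
    refine ⟨a * d + c * b, b * d, ?_, ?_⟩
    · rw [map_mul]; exact mul_ne_zero hb hd
    · rw [map_add, map_mul, map_mul, map_mul, ← hab, ← hcd]; ring
  zero_mem' := ⟨0, 1, by simp, by simp⟩
  neg_mem' := by
    rintro x ⟨a, b, hb, hab⟩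
    exact ⟨-a, b, hb, by rw [map_neg, ← hab]; ring⟩

theorem mem_gaussRing_iff {x : LaurentSeries ℚ} :
    x ∈ gaussRing ℓ ↔ ∃ a b : LaurentSeries ↥(GaloisRep.ratLocalizedAt ℓ),
      redL ℓ b ≠ 0 ∧ x * incl ℓ b = incl ℓ a := Iff.rfl

theorem incl_mem_gaussRing (a : LaurentSeries ↥(GaloisRep.ratLocalizedAt ℓ)) :
    incl ℓ a ∈ gaussRing ℓ := ⟨a, 1, by simp, by simp⟩

/-- A chosen numerator. -/
def gaussNum (x : gaussRing ℓ) : LaurentSeries ↥(GaloisRep.ratLocalizedAt ℓ) := x.2.choose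

/-- A chosen denominator. -/
def gaussDen (x : gaussRing ℓ) : LaurentSeries ↥(GaloisRep.ratLocalizedAt ℓ) :=
  x.2.choose_spec.choose

theorem redL_gaussDen_ne_zero (x : gaussRing ℓ) : redL ℓ (gaussDen ℓ x) ≠ 0 :=
  x.2.choose_spec.choose_spec.1

theorem gauss_spec (x : gaussRing ℓ) :
    (x : LaurentSeries ℚ) * incl ℓ (gaussDen ℓ x) = incl ℓ (gaussNum ℓ x) :=
  x.2.choose_spec.choose_spec.2

/-- The reduction map on the Gauss ring, as a function. -/
def gaussRedFun (x : gaussRing ℓ) : LaurentSeries (ZMod ℓ) :=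
  redL ℓ (gaussNum ℓ x) / redL ℓ (gaussDen ℓ x)

theorem gaussRedFun_eq (x : gaussRing ℓ) (a b : LaurentSeries ↥(GaloisRep.ratLocalizedAt ℓ))
    (hb : redL ℓ b ≠ 0) (h : (x : LaurentSeries ℚ) * incl ℓ b = incl ℓ a) :
    gaussRedFun ℓ x = redL ℓ a / redL ℓ b := by
  rw [gaussRedFun, div_eq_div_iff (redL_gaussDen_ne_zero ℓ x) hb]
  apply redL_cross
  rw [← gauss_spec, ← h]; ring

/-- The reduction map `V → 𝔽_ℓ((q))`. -/
def gaussRed : gaussRing ℓ →+* LaurentSeries (ZMod ℓ) where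
  toFun := gaussRedFun ℓ
  map_one' := by
    rw [gaussRedFun_eq ℓ 1 1 1 (by simp) (by simp)]
    simp
  map_mul' x y := by
    rw [gaussRedFun_eq ℓ (x * y) (gaussNum ℓ x * gaussNum ℓ y) (gaussDen ℓ x * gaussDen ℓ y)
      (by rw [map_mul]; exact mul_ne_zero (redL_gaussDen_ne_zero ℓ x) (redL_gaussDen_ne_zero ℓ y))
      (by rw [map_mul, map_mul, ← gauss_spec, ← gauss_spec, Subring.coe_mul]; ring)]
    rw [map_mul, map_mul, gaussRedFun, gaussRedFun, div_mul_div_comm]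
  map_zero' := by
    rw [gaussRedFun_eq ℓ 0 0 1 (by simp) (by simp)]
    simp
  map_add' x y := by
    rw [gaussRedFun_eq ℓ (x + y) (gaussNum ℓ x * gaussDen ℓ y + gaussNum ℓ y * gaussDen ℓ x)
      (gaussDen ℓ x * gaussDen ℓ y)
      (by rw [map_mul]; exact mul_ne_zero (redL_gaussDen_ne_zero ℓ x) (redL_gaussDen_ne_zero ℓ y))
      (by rw [map_add, map_mul, map_mul, map_mul, ← gauss_spec, ← gauss_spec, Subring.coe_add]; ring)]
    rw [map_add, map_mul, map_mul, map_mul, gaussRedFun, gaussRedFun,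
      div_add_div _ _ (redL_gaussDen_ne_zero ℓ x) (redL_gaussDen_ne_zero ℓ y)]
    ring

theorem gaussRed_eq (x : gaussRing ℓ) (a b : LaurentSeries ↥(GaloisRep.ratLocalizedAt ℓ))
    (hb : redL ℓ b ≠ 0) (h : (x : LaurentSeries ℚ) * incl ℓ b = incl ℓ a) :
    gaussRed ℓ x = redL ℓ a / redL ℓ b := gaussRedFun_eq ℓ x a b hb h

theorem gaussRed_incl (a : LaurentSeries ↥(GaloisRep.ratLocalizedAt ℓ)) :
    gaussRed ℓ ⟨incl ℓ a, incl_mem_gaussRing ℓ a⟩ = redL ℓ a := by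
  rw [gaussRed_eq ℓ _ a 1 (by simp) (by simp)]
  simp

theorem gaussRed_natCast_ell : gaussRed ℓ (ℓ : gaussRing ℓ) = 0 := by
  rw [map_natCast]
  have : ((ℓ : ZMod ℓ)) = 0 := ZMod.natCast_self ℓ
  rw [← map_natCast (HahnSeries.C (Γ := ℤ) (R := ZMod ℓ)), this, map_zero]

theorem gaussRed_eq_zero_iff (x : gaussRing ℓ) :
    gaussRed ℓ x = 0 ↔ ∃ y : gaussRing ℓ, x = (ℓ : gaussRing ℓ) * y := by
  constructor
  · intro h
    have h1 : redL ℓ (gaussNum ℓ x) = 0 := by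
      have h2 : redL ℓ (gaussNum ℓ x) / redL ℓ (gaussDen ℓ x) = 0 := h
      rcases div_eq_zero_iff.mp h2 with h3 | h3
      · exact h3
      · exact absurd h3 (redL_gaussDen_ne_zero ℓ x)
    obtain ⟨a', ha'⟩ := (redL_eq_zero_iff ℓ _).mp h1
    have hspec := gauss_spec ℓ x
    rw [ha', map_mul, incl_C_ell] at hspec
    have hy : (x : LaurentSeries ℚ) * (ℓ : LaurentSeries ℚ)⁻¹ ∈ gaussRing ℓ := by
      refine ⟨a', gaussDen ℓ x, redL_gaussDen_ne_zero ℓ x, ?_⟩
      have hne := ellQ_ne_zero ℓ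
      calc (x : LaurentSeries ℚ) * (ℓ : LaurentSeries ℚ)⁻¹ * incl ℓ (gaussDen ℓ x)
          = ((x : LaurentSeries ℚ) * incl ℓ (gaussDen ℓ x)) * (ℓ : LaurentSeries ℚ)⁻¹ := by ring
        _ = incl ℓ a' := by rw [hspec]; field_simp
    refine ⟨⟨_, hy⟩, Subtype.ext ?_⟩
    have hne := ellQ_ne_zero ℓ
    push_cast
    field_simp
  · rintro ⟨y, rfl⟩
    rw [map_mul, gaussRed_natCast_ell, zero_mul]


/-! ### Primitive parts -/

theorem padicValRat_nonneg_of_mem (x : ↥(GaloisRep.ratLocalizedAt ℓ)) :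
    0 ≤ padicValRat ℓ (x : ℚ) := by
  rw [padicValRat_def]
  have hx : (x : ℚ).den.Coprime ℓ := x.2
  have hnd : ¬ ℓ ∣ (x : ℚ).den := by
    intro h
    have := Nat.Coprime.eq_one_of_dvd hx.symm h
    exact (Fact.out : ℓ.Prime).one_lt.ne' this
  rw [padicValNat.eq_zero_of_not_dvd hnd]
  simp

theorem exists_primitive_aux (m : ℕ) :
    ∀ (b : LaurentSeries ↥(GaloisRep.ratLocalizedAt ℓ)) (n0 : ℤ), b.coeff n0 ≠ 0 →
      padicValRat ℓ (b.coeff n0 : ℚ) ≤ m →
      ∃ (k : ℕ) (b' : LaurentSeries ↥(GaloisRep.ratLocalizedAt ℓ)),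
        b = HahnSeries.C (ℓ : ↥(GaloisRep.ratLocalizedAt ℓ)) ^ k * b' ∧ redL ℓ b' ≠ 0 := by
  induction m with
  | zero =>
    intro b n0 hn0 hv
    by_cases hb : redL ℓ b = 0
    · exfalso
      obtain ⟨b1, rfl⟩ := (redL_eq_zero_iff ℓ b).mp hb
      rw [HahnSeries.C_mul_eq_smul, HahnSeries.coeff_smul, smul_eq_mul] at hn0 hv
      have h1 : (b1.coeff n0 : ℚ) ≠ 0 := by
        intro h
        apply hn0
        have : b1.coeff n0 = 0 := Subtype.ext h
        rw [this, mul_zero]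
      have hℓ : (ℓ : ℚ) ≠ 0 := by exact_mod_cast (Fact.out : ℓ.Prime).ne_zero
      push_cast at hv
      rw [padicValRat.mul hℓ h1, padicValRat.self (Fact.out : ℓ.Prime).one_lt] at hv
      have := padicValRat_nonneg_of_mem ℓ (b1.coeff n0)
      omega
    · exact ⟨0, b, by simp, hb⟩
  | succ m ih =>
    intro b n0 hn0 hv
    by_cases hb : redL ℓ b = 0
    · obtain ⟨b1, rfl⟩ := (redL_eq_zero_iff ℓ b).mp hb
      rw [HahnSeries.C_mul_eq_smul, HahnSeries.coeff_smul, smul_eq_mul] at hn0 hv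
      have h1' : b1.coeff n0 ≠ 0 := by
        intro h
        apply hn0
        rw [h, mul_zero]
      have h1 : (b1.coeff n0 : ℚ) ≠ 0 := by
        intro h
        exact h1' (Subtype.ext h)
      have hℓ : (ℓ : ℚ) ≠ 0 := by exact_mod_cast (Fact.out : ℓ.Prime).ne_zero
      push_cast at hv
      rw [padicValRat.mul hℓ h1, padicValRat.self (Fact.out : ℓ.Prime).one_lt] at hv
      obtain ⟨k, b', hb', hred⟩ := ih b1 n0 h1' (by omega)
      refine ⟨k + 1, b', ?_, hred⟩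
      rw [HahnSeries.C_mul_eq_smul, hb', pow_succ, mul_assoc, ← HahnSeries.C_mul_eq_smul]
      ring
    · exact ⟨0, b, by simp, hb⟩

theorem exists_primitive (b : LaurentSeries ↥(GaloisRep.ratLocalizedAt ℓ)) (hb : b ≠ 0) :
    ∃ (k : ℕ) (b' : LaurentSeries ↥(GaloisRep.ratLocalizedAt ℓ)),
      b = HahnSeries.C (ℓ : ↥(GaloisRep.ratLocalizedAt ℓ)) ^ k * b' ∧ redL ℓ b' ≠ 0 := by
  obtain ⟨n0, hn0⟩ : ∃ n0, b.coeff n0 ≠ 0 := by
    by_contra h
    exact hb (HahnSeries.ext (funext fun n => not_not.mp (not_exists.mp h n)))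
  exact exists_primitive_aux ℓ (padicValRat ℓ (b.coeff n0 : ℚ)).toNat b n0 hn0
    (by rw [Int.toNat_of_nonneg (padicValRat_nonneg_of_mem ℓ _)])

/-! ### The fraction field of `ℤ_(ℓ)((q))` inside `ℚ((q))` -/

/-- The fraction field of `ℤ_(ℓ)((q))`, realised inside `ℚ((q))`. -/
def gaussFrac : Subfield (LaurentSeries ℚ) where
  carrier := {x | ∃ a b : LaurentSeries ↥(GaloisRep.ratLocalizedAt ℓ),
    b ≠ 0 ∧ x * incl ℓ b = incl ℓ a}
  mul_mem' := by
    rintro x y ⟨a, b, hb, hab⟩ ⟨c, d, hd, hcd⟩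
    refine ⟨a * c, b * d, mul_ne_zero hb hd, ?_⟩
    rw [map_mul, map_mul, ← hab, ← hcd]; ring
  one_mem' := ⟨1, 1, one_ne_zero, by simp⟩
  add_mem' := by
    rintro x y ⟨a, b, hb, hab⟩ ⟨c, d, hd, hcd⟩
    refine ⟨a * d + c * b, b * d, mul_ne_zero hb hd, ?_⟩
    rw [map_add, map_mul, map_mul, map_mul, ← hab, ← hcd]; ring
  zero_mem' := ⟨0, 1, one_ne_zero, by simp⟩
  neg_mem' := by
    rintro x ⟨a, b, hb, hab⟩
    exact ⟨-a, b, hb, by rw [map_neg, ← hab]; ring⟩
  inv_mem' := by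
    rintro x ⟨a, b, hb, hab⟩
    by_cases hx : x = 0
    · subst hx
      exact ⟨0, 1, one_ne_zero, by simp⟩
    · have hb' : incl ℓ b ≠ 0 := fun h => hb (incl_injective ℓ (by rw [h, map_zero]))
      have ha : a ≠ 0 := by
        rintro rfl
        rw [map_zero] at hab
        rcases mul_eq_zero.mp hab with h | h
        · exact hx h
        · exact hb' h
      refine ⟨b, a, ha, ?_⟩
      rw [← hab, ← mul_assoc, inv_mul_cancel₀ hx, one_mul]

theorem mem_gaussFrac_iff {x : LaurentSeries ℚ} :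
    x ∈ gaussFrac ℓ ↔ ∃ a b : LaurentSeries ↥(GaloisRep.ratLocalizedAt ℓ),
      b ≠ 0 ∧ x * incl ℓ b = incl ℓ a := Iff.rfl

theorem incl_mem_gaussFrac (a : LaurentSeries ↥(GaloisRep.ratLocalizedAt ℓ)) :
    incl ℓ a ∈ gaussFrac ℓ := ⟨a, 1, one_ne_zero, by simp⟩

theorem gaussRing_le_gaussFrac {x : LaurentSeries ℚ} (hx : x ∈ gaussRing ℓ) :
    x ∈ gaussFrac ℓ := by
  obtain ⟨a, b, hb, hab⟩ := hx
  exact ⟨a, b, fun h => hb (by rw [h, map_zero]), hab⟩

/-- The valuation-ring dichotomy: an element of the fraction field lies in the Gauss ring, or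
it is the inverse of an element of the Gauss ring with vanishing reduction. -/
theorem mem_gaussRing_or_inv {x : LaurentSeries ℚ} (hx : x ∈ gaussFrac ℓ) :
    x ∈ gaussRing ℓ ∨ ∃ y : gaussRing ℓ, gaussRed ℓ y = 0 ∧ x * (y : LaurentSeries ℚ) = 1 := by
  obtain ⟨a, b, hb, hab⟩ := hx
  by_cases ha : a = 0
  · left
    subst ha
    rw [map_zero] at hab
    have hb' : incl ℓ b ≠ 0 := fun h => hb (incl_injective ℓ (by rw [h, map_zero]))
    rcases mul_eq_zero.mp hab with h | h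
    · rw [h]; exact zero_mem _
    · exact absurd h hb'
  obtain ⟨i, a', rfl, ha'⟩ := exists_primitive ℓ a ha
  obtain ⟨k, b', rfl, hb'⟩ := exists_primitive ℓ b hb
  have hℓ := ellQ_ne_zero ℓ
  have ha'0 : incl ℓ a' ≠ 0 := by
    intro h
    apply ha'
    rw [incl_injective ℓ (h.trans (map_zero _).symm), map_zero]
  have hb'0 : incl ℓ b' ≠ 0 := by
    intro h
    apply hb'
    rw [incl_injective ℓ (h.trans (map_zero _).symm), map_zero]
  rw [map_mul, map_mul, map_pow, map_pow, incl_C_ell] at hab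
  rcases le_or_gt k i with hki | hki
  · left
    refine ⟨HahnSeries.C (ℓ : ↥(GaloisRep.ratLocalizedAt ℓ)) ^ (i - k) * a', b', hb', ?_⟩
    rw [map_mul, map_pow, incl_C_ell]
    have hpow : (ℓ : LaurentSeries ℚ) ^ i = (ℓ : LaurentSeries ℚ) ^ k * (ℓ : LaurentSeries ℚ) ^ (i - k) := by
      rw [← pow_add]; congr 1; omega
    rw [hpow] at hab
    have hk : (ℓ : LaurentSeries ℚ) ^ k ≠ 0 := pow_ne_zero _ hℓ
    apply mul_left_cancel₀ hk
    linear_combination hab
  · right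
    have hy : (ℓ : LaurentSeries ℚ) ^ (k - i) * incl ℓ b' * (incl ℓ a')⁻¹ ∈ gaussRing ℓ := by
      refine ⟨HahnSeries.C (ℓ : ↥(GaloisRep.ratLocalizedAt ℓ)) ^ (k - i) * b', a', ha', ?_⟩
      rw [map_mul, map_pow, incl_C_ell]
      field_simp
    refine ⟨⟨_, hy⟩, ?_, ?_⟩
    · rw [gaussRed_eq ℓ _ (HahnSeries.C (ℓ : ↥(GaloisRep.ratLocalizedAt ℓ)) ^ (k - i) * b') a' ha'
        (by rw [map_mul, map_pow, incl_C_ell]; field_simp)]
      rw [map_mul, map_pow, redL_C_ell, zero_pow (by omega), zero_mul, zero_div]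
    · show x * ((ℓ : LaurentSeries ℚ) ^ (k - i) * incl ℓ b' * (incl ℓ a')⁻¹) = 1
      have hpow : (ℓ : LaurentSeries ℚ) ^ k = (ℓ : LaurentSeries ℚ) ^ i * (ℓ : LaurentSeries ℚ) ^ (k - i) := by
        rw [← pow_add]; congr 1; omega
      rw [hpow] at hab
      have hi : (ℓ : LaurentSeries ℚ) ^ i ≠ 0 := pow_ne_zero _ hℓ
      have h2 : x * ((ℓ : LaurentSeries ℚ) ^ (k - i) * incl ℓ b') = incl ℓ a' := by
        apply mul_left_cancel₀ hi
        linear_combination hab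
      rw [← mul_assoc, ← mul_assoc, mul_assoc x, h2, mul_inv_cancel₀ ha'0]


/-! ### The modular function field sits inside the fraction field -/

open ModularCurve.IgusaScheme

theorem jqd_eq_incl (d : ℕ) [NeZero d] :
    qExpand ℚ d jq = incl ℓ (qExpand ↥(GaloisRep.ratLocalizedAt ℓ) d
      (jqModC ↥(GaloisRep.ratLocalizedAt ℓ))) := by
  rw [incl, coeffMap_qExpand, coeffMap_jqModC]
  rfl

theorem redL_jqd (d : ℕ) [NeZero d] :
    redL ℓ (qExpand ↥(GaloisRep.ratLocalizedAt ℓ) d (jqModC ↥(GaloisRep.ratLocalizedAt ℓ))) =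
      qExpand (ZMod ℓ) d (jqModC (ZMod ℓ)) := by
  rw [redL, coeffMap_qExpand, coeffMap_jqModC]

theorem jqd_mem_gaussRing (d : ℕ) [NeZero d] : qExpand ℚ d jq ∈ gaussRing ℓ := by
  rw [jqd_eq_incl ℓ d]
  exact incl_mem_gaussRing ℓ _

theorem jq_eq_incl : jq = incl ℓ (jqModC ↥(GaloisRep.ratLocalizedAt ℓ)) := by
  rw [incl, coeffMap_jqModC]
  rfl

theorem redL_jq : redL ℓ (jqModC ↥(GaloisRep.ratLocalizedAt ℓ)) = jqModC (ZMod ℓ) := by
  rw [redL, coeffMap_jqModC]

theorem jq_mem_gaussRing : jq ∈ gaussRing ℓ := by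
  rw [jq_eq_incl ℓ]
  exact incl_mem_gaussRing ℓ _

theorem jq_inv_mem_gaussRing : jq⁻¹ ∈ gaussRing ℓ := by
  refine ⟨1, jqModC ↥(GaloisRep.ratLocalizedAt ℓ), ?_, ?_⟩
  · rw [redL_jq]
    exact jqModC_ne_zero_of_nontrivial (ZMod ℓ)
  · rw [← jq_eq_incl, map_one, inv_mul_cancel₀ jq_ne_zero]

variable (N : ℕ) [NeZero N]

instance charZero_laurentQ : CharZero (LaurentSeries ℚ) :=
  charZero_of_injective_ringHom (HahnSeries.C_injective (Γ := ℤ) (R := ℚ))

/-- Ring homomorphisms out of `ℤ_(ℓ)` into a field of characteristic zero are unique. -/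
theorem ringHom_ext_Zl {L : Type*} [Field L] [CharZero L]
    (f g : ↥(GaloisRep.ratLocalizedAt ℓ) →+* L) : f = g := by
  ext x
  have hden : ((x : ℚ).den : L) ≠ 0 := by
    exact_mod_cast (x : ℚ).den_ne_zero
  have hx : (((x : ℚ).den : ℕ) : ↥(GaloisRep.ratLocalizedAt ℓ)) * x =
      (((x : ℚ).num : ℤ) : ↥(GaloisRep.ratLocalizedAt ℓ)) := by
    apply Subtype.ext
    push_cast
    exact Rat.den_mul_eq_num (x : ℚ)
  have hf := congrArg f hx
  have hg := congrArg g hx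
  rw [map_mul, map_natCast, map_intCast] at hf hg
  apply mul_left_cancel₀ hden
  rw [hf, hg]

theorem incl_C (r : ↥(GaloisRep.ratLocalizedAt ℓ)) :
    incl ℓ (HahnSeries.C r) = HahnSeries.C (r : ℚ) := by
  show coeffMap _ (HahnSeries.single 0 r) = _
  rw [coeffMap_single]
  rfl

theorem redL_C (r : ↥(GaloisRep.ratLocalizedAt ℓ)) :
    redL ℓ (HahnSeries.C r) = HahnSeries.C (resZl ℓ r) := by
  show coeffMap _ (HahnSeries.single 0 r) = _
  rw [coeffMap_single]
  rfl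

theorem coe_algebraMap_full (r : ↥(GaloisRep.ratLocalizedAt ℓ)) :
    ((algebraMap ↥(GaloisRep.ratLocalizedAt ℓ) ↥(modularFunctionFieldFull N) r :
      ↥(modularFunctionFieldFull N)) : LaurentSeries ℚ) = incl ℓ (HahnSeries.C r) := by
  have := ringHom_ext_Zl ℓ
    ((SubringClass.subtype (modularFunctionFieldFull N)).comp
      (algebraMap ↥(GaloisRep.ratLocalizedAt ℓ) ↥(modularFunctionFieldFull N)))
    ((incl ℓ).comp (HahnSeries.C (Γ := ℤ) (R := ↥(GaloisRep.ratLocalizedAt ℓ))))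
  exact RingHom.congr_fun this r

attribute [local instance 100000] HahnSeries.powerSeriesAlgebra in
theorem full_le_gaussFrac {x : LaurentSeries ℚ} (hx : x ∈ modularFunctionFieldFull N) :
    x ∈ gaussFrac ℓ := by
  have hle : (modularFunctionFieldFull N).toSubfield ≤ gaussFrac ℓ := by
    unfold modularFunctionFieldFull
    rw [IntermediateField.adjoin_toSubfield, Subfield.closure_le]
    rintro y (⟨c, rfl⟩ | ⟨d, hd, -, rfl⟩)
    · rw [eq_ratCast]
      exact SubfieldClass.ratCast_mem _ c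
    · have := hd
      exact gaussRing_le_gaussFrac ℓ (jqd_mem_gaussRing ℓ d)
  exact hle hx

/-- The Gauss ring, cut out inside the modular function field, as a `ℤ_(ℓ)`-subalgebra. -/
def gaussSub : Subalgebra ↥(GaloisRep.ratLocalizedAt ℓ) ↥(modularFunctionFieldFull N) where
  carrier := {x | (x : LaurentSeries ℚ) ∈ gaussRing ℓ}
  mul_mem' := by
    intro a b ha hb
    exact (gaussRing ℓ).mul_mem ha hb
  one_mem' := (gaussRing ℓ).one_mem
  add_mem' := by
    intro a b ha hb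
    exact (gaussRing ℓ).add_mem ha hb
  zero_mem' := (gaussRing ℓ).zero_mem
  algebraMap_mem' r := by
    show ((algebraMap ↥(GaloisRep.ratLocalizedAt ℓ) ↥(modularFunctionFieldFull N) r :
      ↥(modularFunctionFieldFull N)) : LaurentSeries ℚ) ∈ gaussRing ℓ
    rw [coe_algebraMap_full]
    exact incl_mem_gaussRing ℓ _

theorem mem_gaussSub_iff {x : ↥(modularFunctionFieldFull N)} :
    x ∈ gaussSub ℓ N ↔ (x : LaurentSeries ℚ) ∈ gaussRing ℓ := Iff.rfl

/-- The ring homomorphism from `gaussSub` to the Gauss ring. -/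
def gaussSubTo : gaussSub ℓ N →+* gaussRing ℓ where
  toFun x := ⟨((x : ↥(modularFunctionFieldFull N)) : LaurentSeries ℚ), x.2⟩
  map_one' := rfl
  map_mul' _ _ := rfl
  map_zero' := rfl
  map_add' _ _ := rfl

/-- Reduction on `gaussSub`. -/
def gaussSubRed : gaussSub ℓ N →+* LaurentSeries (ZMod ℓ) := (gaussRed ℓ).comp (gaussSubTo ℓ N)

/-- The Gauss ring is integrally closed in the modular function field. -/
theorem mem_gaussSub_of_isIntegral {x : ↥(modularFunctionFieldFull N)}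
    (hx : IsIntegral (gaussSub ℓ N) x) : x ∈ gaussSub ℓ N := by
  rcases mem_gaussRing_or_inv ℓ (full_le_gaussFrac ℓ N x.2) with h | ⟨y, hy0, hxy⟩
  · exact h
  exfalso
  have hx0 : x ≠ 0 := by
    rintro rfl
    simp at hxy
  have hyx : (y : LaurentSeries ℚ) = ((x⁻¹ : ↥(modularFunctionFieldFull N)) : LaurentSeries ℚ) := by
    have hx0' : (x : LaurentSeries ℚ) ≠ 0 := fun h => hx0 (Subtype.ext h)
    apply mul_left_cancel₀ hx0'
    rw [hxy]
    push_cast
    rw [mul_inv_cancel₀ hx0']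
  have hinv : x⁻¹ ∈ gaussSub ℓ N := by
    rw [mem_gaussSub_iff, ← hyx]
    exact y.2
  set y' : gaussSub ℓ N := ⟨x⁻¹, hinv⟩ with hy'
  have hred : gaussSubRed ℓ N y' = 0 := by
    have : gaussSubTo ℓ N y' = y := Subtype.ext hyx.symm
    rw [gaussSubRed, RingHom.comp_apply, this, hy0]
  obtain ⟨p, hmonic, hroot⟩ := hx
  let _ : Invertible x := invertibleOfNonzero hx0
  have h1 := Polynomial.eval₂_reverse_mul_pow (algebraMap (gaussSub ℓ N) ↥(modularFunctionFieldFull N)) x p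
  rw [hroot] at h1
  have h2 : Polynomial.eval₂ (algebraMap (gaussSub ℓ N) ↥(modularFunctionFieldFull N)) (⅟x)
      p.reverse = 0 := by
    rcases mul_eq_zero.mp h1 with h | h
    · exact h
    · exact absurd h (pow_ne_zero _ hx0)
  have h3 : (⅟x : ↥(modularFunctionFieldFull N)) =
      algebraMap (gaussSub ℓ N) ↥(modularFunctionFieldFull N) y' := by
    rw [invOf_eq_inv]; rfl
  rw [h3, Polynomial.eval₂_at_apply] at h2
  have h4 : Polynomial.eval y' p.reverse = 0 := by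
    have hinj : Function.Injective (algebraMap (gaussSub ℓ N) ↥(modularFunctionFieldFull N)) :=
      Subtype.val_injective
    exact hinj (by rw [h2, map_zero])
  have h5 := congrArg (gaussSubRed ℓ N) h4
  rw [map_zero, ← Polynomial.eval₂_id, Polynomial.hom_eval₂, hred, Polynomial.eval₂_at_zero,
    RingHom.comp_apply, RingHom.id_apply, Polynomial.coeff_zero_reverse, hmonic.leadingCoeff,
    map_one] at h5
  exact one_ne_zero h5

variable {ℓ N} in
/-- A chart algebra whose generators lie in the Gauss ring is contained in the Gauss ring. -/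
theorem chartAlg_le_gaussSub {S : Set ↥(modularFunctionFieldFull N)}
    (hS : ∀ s ∈ S, s ∈ gaussSub ℓ N) : chartAlg N ℓ S ≤ gaussSub ℓ N := by
  intro x hx
  rw [mem_chartAlg_iff] at hx
  apply mem_gaussSub_of_isIntegral
  have hle : Algebra.adjoin ↥(GaloisRep.ratLocalizedAt ℓ) S ≤ gaussSub ℓ N :=
    Algebra.adjoin_le hS
  exact hx.map_of_comp_eq (Subalgebra.inclusion hle).toRingHom
    (RingHom.id ↥(modularFunctionFieldFull N)) (by ext; rfl)

theorem jFull_mem_gaussSub : jFull N ∈ gaussSub ℓ N := jq_mem_gaussRing ℓ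

theorem jFull_inv_mem_gaussSub : (jFull N)⁻¹ ∈ gaussSub ℓ N := by
  rw [mem_gaussSub_iff]
  push_cast
  exact jq_inv_mem_gaussRing ℓ

/-- The three chart generator sets lie in the Gauss ring. -/
def IsChartSet (S : Set ↥(modularFunctionFieldFull N)) : Prop :=
  S ⊆ {jFull N, (jFull N)⁻¹}

variable {ℓ N} in
theorem IsChartSet.le_gaussSub {S : Set ↥(modularFunctionFieldFull N)} (hS : IsChartSet N S) :
    chartAlg N ℓ S ≤ gaussSub ℓ N := by
  apply chartAlg_le_gaussSub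
  intro s hs
  rcases hS hs with rfl | h
  · exact jFull_mem_gaussSub ℓ N
  · rw [Set.mem_singleton_iff] at h
    rw [h]
    exact jFull_inv_mem_gaussSub ℓ N

theorem isChartSet_fin : IsChartSet N {jFull N} := sFin_subset N
theorem isChartSet_inf : IsChartSet N {(jFull N)⁻¹} := sInf_subset N
theorem isChartSet_mid : IsChartSet N {jFull N, (jFull N)⁻¹} := subset_rfl

/-- Reduction of a chart algebra into `𝔽_ℓ((q))`. -/
def chartRed (S : Set ↥(modularFunctionFieldFull N)) (hS : IsChartSet N S) :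
    chartAlg N ℓ S →+* LaurentSeries (ZMod ℓ) :=
  (gaussSubRed ℓ N).comp (Subalgebra.inclusion hS.le_gaussSub).toRingHom

theorem chartRed_algebraMap (S : Set ↥(modularFunctionFieldFull N)) (hS : IsChartSet N S)
    (r : ↥(GaloisRep.ratLocalizedAt ℓ)) :
    chartRed ℓ N S hS (algebraMap ↥(GaloisRep.ratLocalizedAt ℓ) (chartAlg N ℓ S) r) =
      HahnSeries.C (resZl ℓ r) := by
  have h : gaussSubTo ℓ N ((Subalgebra.inclusion hS.le_gaussSub)
      (algebraMap ↥(GaloisRep.ratLocalizedAt ℓ) (chartAlg N ℓ S) r)) =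
      ⟨incl ℓ (HahnSeries.C r), incl_mem_gaussRing ℓ _⟩ := by
    apply Subtype.ext
    exact coe_algebraMap_full ℓ N r
  show gaussRed ℓ (gaussSubTo ℓ N ((Subalgebra.inclusion hS.le_gaussSub)
      (algebraMap ↥(GaloisRep.ratLocalizedAt ℓ) (chartAlg N ℓ S) r))) = _
  rw [h, gaussRed_incl, redL_C]

end Fermat.Agent.S28.H806
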