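import Mathlib
import Fermat.Agent.S28.H806.GaussRing

set_option autoImplicit false
set_option linter.unusedSectionVars false
set_option linter.style.haveILetI false

noncomputable section

namespace Fermat.Agent.S28.H806

open Polynomial ModularCurve

variable (ℓ : ℕ) [Fact ℓ.Prime]

/-- `ℤ_(ℓ)` as a valuation subring of `ℚ`. -/
def valSubZl : ValuationSubring ℚ :=
  { GaloisRep.ratLocalizedAt ℓ with
    mem_or_inv_mem' := by
      intro x
      by_cases h : ℓ ∣ x.den
      · right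
        have hx0 : x ≠ 0 := by
          rintro rfl
          simp at h
          exact (Fact.out : ℓ.Prime).ne_one h
        show (x⁻¹).den.Coprime ℓ
        rw [Rat.den_inv_of_ne_zero hx0]
        rw [Nat.coprime_comm, Nat.Prime.coprime_iff_not_dvd (Fact.out : ℓ.Prime)]
        intro h2
        have hred : Nat.Coprime x.num.natAbs x.den := x.reduced
        have := Nat.dvd_gcd h2 h
        rw [hred] at this
        exact (Fact.out : ℓ.Prime).one_lt.ne' (Nat.dvd_one.mp this)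
      · left
        show x.den.Coprime ℓ
        rw [Nat.coprime_comm, Nat.Prime.coprime_iff_not_dvd (Fact.out : ℓ.Prime)]
        exact h }

instance isIntegrallyClosed_Zl : IsIntegrallyClosed ↥(GaloisRep.ratLocalizedAt ℓ) :=
  inferInstanceAs (IsIntegrallyClosed (valSubZl ℓ).toSubring)

example : IsIntegrallyClosed (Polynomial ↥(GaloisRep.ratLocalizedAt ℓ)) := inferInstance

/-- `ℓ` is a unit-free prime: natural numbers prime to `ℓ` are units of `ℤ_(ℓ)`. -/
theorem isUnit_natCast_of_not_dvd {c : ℕ} (hc : ¬ ℓ ∣ c) :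
    IsUnit (c : ↥(GaloisRep.ratLocalizedAt ℓ)) := by
  have hc0 : c ≠ 0 := by
    rintro rfl
    exact hc (dvd_zero _)
  have hmem : ((c : ℚ)⁻¹) ∈ GaloisRep.ratLocalizedAt ℓ := by
    show ((c : ℚ)⁻¹).den.Coprime ℓ
    rw [Rat.inv_natCast_den_of_pos (Nat.pos_of_ne_zero hc0)]
    rw [Nat.coprime_comm, Nat.Prime.coprime_iff_not_dvd (Fact.out : ℓ.Prime)]
    exact hc
  refine IsUnit.of_mul_eq_one ⟨(c : ℚ)⁻¹, hmem⟩ (Subtype.ext ?_)
  push_cast
  exact mul_inv_cancel₀ (by exact_mod_cast hc0)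

/-- The ring homomorphism `ℤ → ℤ_(ℓ)`. -/
abbrev intToZl : ℤ →+* ↥(GaloisRep.ratLocalizedAt ℓ) := Int.castRingHom _

theorem resZl_comp_intToZl : (resZl ℓ).comp (intToZl ℓ) = Int.castRingHom (ZMod ℓ) :=
  RingHom.ext_int _ _

/-- Primitive part of an integer polynomial with respect to `ℓ`. -/
theorem exists_primitive_intPoly (g : ℤ[X]) (hg : g ≠ 0) :
    ∃ (k : ℕ) (g' : ℤ[X]), g = C (ℓ : ℤ) ^ k * g' ∧ g'.map (Int.castRingHom (ZMod ℓ)) ≠ 0 := by
  have hprime : Prime (C (ℓ : ℤ) : ℤ[X]) := by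
    rw [Polynomial.prime_C_iff]
    exact Nat.prime_iff_prime_int.mp (Fact.out : ℓ.Prime)
  obtain ⟨k, g', hnd, hgg'⟩ := WfDvdMonoid.max_power_factor hg hprime.irreducible
  refine ⟨k, g', hgg', ?_⟩
  intro h0
  apply hnd
  have hmem : g' ∈ RingHom.ker (Polynomial.mapRingHom (Int.castRingHom (ZMod ℓ))) := h0
  rw [Polynomial.ker_mapRingHom, ZMod.ker_intCastRingHom, Ideal.map_span, Set.image_singleton,
    Ideal.mem_span_singleton] at hmem
  exact hmem

/-- An integer polynomial vanishing mod `ℓ` is divisible by `ℓ`. -/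
theorem dvd_of_map_intCast_eq_zero (g : ℤ[X]) (h0 : g.map (Int.castRingHom (ZMod ℓ)) = 0) :
    ∃ g' : ℤ[X], g = C (ℓ : ℤ) * g' := by
  have hmem : g ∈ RingHom.ker (Polynomial.mapRingHom (Int.castRingHom (ZMod ℓ))) := h0
  rw [Polynomial.ker_mapRingHom, ZMod.ker_intCastRingHom, Ideal.map_span, Set.image_singleton,
    Ideal.mem_span_singleton] at hmem
  exact hmem

/-- A polynomial over `ℤ_(ℓ)` vanishing mod `ℓ` is divisible by `ℓ`. -/
theorem dvd_of_map_resZl_eq_zero (g : (↥(GaloisRep.ratLocalizedAt ℓ))[X])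
    (h0 : g.map (resZl ℓ) = 0) :
    ∃ g' : (↥(GaloisRep.ratLocalizedAt ℓ))[X],
      g = C (ℓ : ↥(GaloisRep.ratLocalizedAt ℓ)) * g' := by
  have hker : RingHom.ker (resZl ℓ) = Ideal.span {(ℓ : ↥(GaloisRep.ratLocalizedAt ℓ))} := by
    ext x
    rw [RingHom.mem_ker, resZl_eq_zero_iff, Ideal.mem_span_singleton]
    rfl
  have hmem : g ∈ RingHom.ker (Polynomial.mapRingHom (resZl ℓ)) := h0
  rw [Polynomial.ker_mapRingHom, hker, Ideal.map_span, Set.image_singleton,
    Ideal.mem_span_singleton] at hmem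
  exact hmem

end Fermat.Agent.S28.H806
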