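import Mathlib
import Fermat.Agent.S28.H806.GaussRing
import Fermat.Agent.S28.H806.LemmaM
import Fermat.Agent.S28.H806.Transcend
import Fermat.Agent.S28.H806.ZlClosed

set_option autoImplicit false
set_option linter.unusedSectionVars false
set_option linter.style.haveILetI false

noncomputable section

namespace Fermat.Agent.S28.H806

open Polynomial ModularCurve ModularCurve.IgusaScheme

variable (ℓ : ℕ) [Fact ℓ.Prime] (N : ℕ) [NeZero N]

/-! ### Part A: the polynomial subring `R[t]` -/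

theorem gaussSubRed_algebraMap (r : ↥(GaloisRep.ratLocalizedAt ℓ)) :
    gaussSubRed ℓ N (algebraMap ↥(GaloisRep.ratLocalizedAt ℓ) (gaussSub ℓ N) r) =
      HahnSeries.C (resZl ℓ r) := by
  have h : gaussSubTo ℓ N (algebraMap ↥(GaloisRep.ratLocalizedAt ℓ) (gaussSub ℓ N) r) =
      ⟨incl ℓ (HahnSeries.C r), incl_mem_gaussRing ℓ _⟩ := by
    apply Subtype.ext
    exact coe_algebraMap_full ℓ N r
  show gaussRed ℓ (gaussSubTo ℓ N _) = _
  rw [h, gaussRed_incl, redL_C]

variable {ℓ N}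

/-- Evaluation `R[X] → F ∩ V`, `X ↦ t`. -/
def evW (t : gaussSub ℓ N) : (↥(GaloisRep.ratLocalizedAt ℓ))[X] →+* gaussSub ℓ N :=
  (Polynomial.aeval t).toRingHom

theorem coe_evW (t : gaussSub ℓ N) (p : (↥(GaloisRep.ratLocalizedAt ℓ))[X]) :
    ((evW t p : gaussSub ℓ N) : ↥(modularFunctionFieldFull N)) =
      Polynomial.aeval (t : ↥(modularFunctionFieldFull N)) p := by
  exact Polynomial.aeval_subalgebra_coe p (gaussSub ℓ N) t

theorem gaussSubRed_evW (t : gaussSub ℓ N) (p : (↥(GaloisRep.ratLocalizedAt ℓ))[X]) :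
    gaussSubRed ℓ N (evW t p) =
      (p.map (resZl ℓ)).eval₂ (HahnSeries.C (Γ := ℤ) (R := ZMod ℓ)) (gaussSubRed ℓ N t) := by
  have h : (gaussSubRed ℓ N).comp (evW t) =
      (Polynomial.eval₂RingHom (HahnSeries.C (Γ := ℤ) (R := ZMod ℓ)) (gaussSubRed ℓ N t)).comp
        (Polynomial.mapRingHom (resZl ℓ)) := by
    apply Polynomial.ringHom_ext
    · intro r
      simp only [RingHom.comp_apply, evW, AlgHom.toRingHom_eq_coe, RingHom.coe_coe,
        Polynomial.aeval_C, Polynomial.coe_mapRingHom, Polynomial.map_C,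
        Polynomial.coe_eval₂RingHom, Polynomial.eval₂_C]
      exact gaussSubRed_algebraMap ℓ N r
    · simp only [RingHom.comp_apply, evW, AlgHom.toRingHom_eq_coe, RingHom.coe_coe,
        Polynomial.aeval_X, Polynomial.coe_mapRingHom, Polynomial.map_X,
        Polynomial.coe_eval₂RingHom, Polynomial.eval₂_X]
  exact RingHom.congr_fun h p

/-- Elements of `R[t]` are values of polynomials. -/
theorem exists_evW_of_mem_adjoin (t : gaussSub ℓ N) {u : ↥(modularFunctionFieldFull N)}
    (hu : u ∈ Algebra.adjoin ↥(GaloisRep.ratLocalizedAt ℓ) {(t : ↥(modularFunctionFieldFull N))}) :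
    ∃ p : (↥(GaloisRep.ratLocalizedAt ℓ))[X], u = (evW t p : gaussSub ℓ N) := by
  rw [Algebra.adjoin_singleton_eq_range_aeval] at hu
  obtain ⟨p, hp⟩ := hu
  refine ⟨p, ?_⟩
  rw [coe_evW]
  exact hp.symm

theorem adjoin_le_gaussSub (t : gaussSub ℓ N) :
    Algebra.adjoin ↥(GaloisRep.ratLocalizedAt ℓ) {(t : ↥(modularFunctionFieldFull N))} ≤
      gaussSub ℓ N :=
  Algebra.adjoin_le (by
    intro s hs
    rw [Set.mem_singleton_iff] at hs
    rw [hs]
    exact t.2)

/-- Reduction restricted to `R[t]`. -/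
def adjoinRed (t : gaussSub ℓ N) :
    Algebra.adjoin ↥(GaloisRep.ratLocalizedAt ℓ) {(t : ↥(modularFunctionFieldFull N))} →+*
      LaurentSeries (ZMod ℓ) :=
  (gaussSubRed ℓ N).comp (Subalgebra.inclusion (adjoin_le_gaussSub t)).toRingHom

theorem adjoinRed_natCast (t : gaussSub ℓ N) :
    adjoinRed t ((ℓ : ℕ) : Algebra.adjoin ↥(GaloisRep.ratLocalizedAt ℓ)
      {(t : ↥(modularFunctionFieldFull N))}) = 0 := by
  rw [map_natCast]
  have : ((ℓ : ZMod ℓ)) = 0 := ZMod.natCast_self ℓ
  rw [← map_natCast (HahnSeries.C (Γ := ℤ) (R := ZMod ℓ)), this, map_zero]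

/-- **(P6)** The kernel of reduction on `R[t]` is generated by `ℓ`, provided the reduction of
`t` has nonzero order. -/
theorem dvd_of_adjoinRed_eq_zero (t : gaussSub ℓ N) (ht : (gaussSubRed ℓ N t).order ≠ 0)
    (u : Algebra.adjoin ↥(GaloisRep.ratLocalizedAt ℓ) {(t : ↥(modularFunctionFieldFull N))})
    (hu : adjoinRed t u = 0) :
    ((ℓ : ℕ) : Algebra.adjoin ↥(GaloisRep.ratLocalizedAt ℓ)
      {(t : ↥(modularFunctionFieldFull N))}) ∣ u := by
  obtain ⟨p, hp⟩ := exists_evW_of_mem_adjoin t u.2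
  have h1 : gaussSubRed ℓ N (evW t p) = 0 := by
    have : (Subalgebra.inclusion (adjoin_le_gaussSub t)) u = evW t p := Subtype.ext hp
    rw [← this]
    exact hu
  rw [gaussSubRed_evW] at h1
  have h2 := eq_zero_of_eval₂_C_eq_zero _ ht _ h1
  obtain ⟨p', hp'⟩ := dvd_of_map_resZl_eq_zero ℓ p h2
  have hmem : Polynomial.aeval (t : ↥(modularFunctionFieldFull N)) p' ∈
      Algebra.adjoin ↥(GaloisRep.ratLocalizedAt ℓ) {(t : ↥(modularFunctionFieldFull N))} := by
    rw [Algebra.adjoin_singleton_eq_range_aeval]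
    exact ⟨p', rfl⟩
  refine ⟨⟨_, hmem⟩, Subtype.ext ?_⟩
  rw [hp, coe_evW, hp', map_mul, Polynomial.aeval_C]
  push_cast
  rfl


/-- The coercion `F → ℚ((q))` as a ring homomorphism. -/
abbrev fullSubtype (N : ℕ) [NeZero N] : ↥(modularFunctionFieldFull N) →+* LaurentSeries ℚ :=
  SubringClass.subtype (modularFunctionFieldFull N)

theorem coe_aeval_full (t : ↥(modularFunctionFieldFull N))
    (p : (↥(GaloisRep.ratLocalizedAt ℓ))[X]) :
    ((Polynomial.aeval t p : ↥(modularFunctionFieldFull N)) : LaurentSeries ℚ) =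
      (p.map (GaloisRep.ratLocalizedAt ℓ).subtype).eval₂ (HahnSeries.C (Γ := ℤ) (R := ℚ))
        (t : LaurentSeries ℚ) := by
  have h : (fullSubtype N).comp (Polynomial.aeval (R := ↥(GaloisRep.ratLocalizedAt ℓ)) t).toRingHom =
      (Polynomial.eval₂RingHom (HahnSeries.C (Γ := ℤ) (R := ℚ)) (t : LaurentSeries ℚ)).comp
        (Polynomial.mapRingHom (GaloisRep.ratLocalizedAt ℓ).subtype) := by
    apply Polynomial.ringHom_ext
    · intro r
      simp only [RingHom.comp_apply, AlgHom.toRingHom_eq_coe, RingHom.coe_coe,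
        Polynomial.aeval_C, Polynomial.coe_mapRingHom, Polynomial.map_C,
        Polynomial.coe_eval₂RingHom, Polynomial.eval₂_C]
      show ((algebraMap ↥(GaloisRep.ratLocalizedAt ℓ) ↥(modularFunctionFieldFull N) r :
        ↥(modularFunctionFieldFull N)) : LaurentSeries ℚ) = _
      rw [coe_algebraMap_full, incl_C]
      rfl
    · simp only [RingHom.comp_apply, AlgHom.toRingHom_eq_coe, RingHom.coe_coe,
        Polynomial.aeval_X, Polynomial.coe_mapRingHom, Polynomial.map_X,
        Polynomial.coe_eval₂RingHom, Polynomial.eval₂_X]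
      rfl
  exact RingHom.congr_fun h p

/-- **(A2)** `aeval t : R[X] → F` is injective if `t` has nonzero order. -/
theorem aeval_full_injective (t : ↥(modularFunctionFieldFull N))
    (ht : (t : LaurentSeries ℚ).order ≠ 0) :
    Function.Injective (Polynomial.aeval (R := ↥(GaloisRep.ratLocalizedAt ℓ)) t) := by
  rw [injective_iff_map_eq_zero]
  intro p hp
  have h1 := coe_aeval_full (ℓ := ℓ) t p
  rw [hp] at h1
  have h2 := eq_zero_of_eval₂_C_eq_zero _ ht _ h1.symm
  exact Polynomial.map_injective _ Subtype.val_injective (by rw [h2, Polynomial.map_zero])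

/-- **(P7)** `R[t]` is integrally closed. -/
theorem isIntegrallyClosed_adjoin (t : ↥(modularFunctionFieldFull N))
    (ht : (t : LaurentSeries ℚ).order ≠ 0) :
    IsIntegrallyClosed (Algebra.adjoin ↥(GaloisRep.ratLocalizedAt ℓ) {t}) := by
  let e1 := AlgEquiv.ofInjective (Polynomial.aeval (R := ↥(GaloisRep.ratLocalizedAt ℓ)) t)
    (aeval_full_injective t ht)
  let e2 := Subalgebra.equivOfEq _ _
    (Algebra.adjoin_singleton_eq_range_aeval ↥(GaloisRep.ratLocalizedAt ℓ) t).symm
  exact IsIntegrallyClosed.of_equiv (e1.trans e2).toRingEquiv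

theorem natCast_adjoin_ne_zero (t : ↥(modularFunctionFieldFull N)) :
    ((ℓ : ℕ) : Algebra.adjoin ↥(GaloisRep.ratLocalizedAt ℓ) {t}) ≠ 0 := by
  intro h
  have h1 := congrArg (fun x : Algebra.adjoin ↥(GaloisRep.ratLocalizedAt ℓ) {t} =>
    ((x : ↥(modularFunctionFieldFull N)) : LaurentSeries ℚ)) h
  push_cast at h1
  exact ellQ_ne_zero ℓ h1

/-- **Part B.** If `ℓ·y` and `s·y` are integral over `R[t]` with `s ∈ R[t]` of nonzero
reduction, then `y` is integral over `R[t]`. -/
theorem isIntegral_adjoin_of_mul (t : gaussSub ℓ N) (ht : (gaussSubRed ℓ N t).order ≠ 0)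
    (htQ : ((t : ↥(modularFunctionFieldFull N)) : LaurentSeries ℚ).order ≠ 0)
    (y : ↥(modularFunctionFieldFull N))
    (h1 : IsIntegral (Algebra.adjoin ↥(GaloisRep.ratLocalizedAt ℓ)
      {(t : ↥(modularFunctionFieldFull N))}) ((ℓ : ↥(modularFunctionFieldFull N)) * y))
    (s : Algebra.adjoin ↥(GaloisRep.ratLocalizedAt ℓ) {(t : ↥(modularFunctionFieldFull N))})
    (hs : adjoinRed t s ≠ 0)
    (h2 : IsIntegral (Algebra.adjoin ↥(GaloisRep.ratLocalizedAt ℓ)
      {(t : ↥(modularFunctionFieldFull N))}) ((s : ↥(modularFunctionFieldFull N)) * y)) :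
    IsIntegral (Algebra.adjoin ↥(GaloisRep.ratLocalizedAt ℓ)
      {(t : ↥(modularFunctionFieldFull N))}) y := by
  haveI := isIntegrallyClosed_adjoin (ℓ := ℓ) (t : ↥(modularFunctionFieldFull N)) htQ
  refine isIntegral_of_isIntegral_smul_of_isIntegral_smul (adjoinRed t)
    ((ℓ : ℕ) : Algebra.adjoin ↥(GaloisRep.ratLocalizedAt ℓ) {(t : ↥(modularFunctionFieldFull N))})
    s (natCast_adjoin_ne_zero _) (adjoinRed_natCast t) (dvd_of_adjoinRed_eq_zero t ht) hs y ?_ ?_
  · have : ((ℓ : ℕ) : Algebra.adjoin ↥(GaloisRep.ratLocalizedAt ℓ)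
        {(t : ↥(modularFunctionFieldFull N))}) • y = (ℓ : ↥(modularFunctionFieldFull N)) * y := by
      rw [Subalgebra.smul_def]
      push_cast
      rfl
    rw [this]
    exact h1
  · have : s • y = (s : ↥(modularFunctionFieldFull N)) * y := by
      rw [Subalgebra.smul_def]
      rfl
    rw [this]
    exact h2

end Fermat.Agent.S28.H806
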