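import Mathlib
import Fermat.Agent.S28.Basis
import Fermat.Agent.S28.H806.AdjoinRing

set_option autoImplicit false
set_option linter.unusedSectionVars false
set_option linter.style.haveILetI false

noncomputable section

namespace Fermat.Agent.S28.H806

open Polynomial ModularCurve ModularCurve.IgusaScheme Fermat.Agent.S28

variable (ℓ : ℕ) [Fact ℓ.Prime] (N : ℕ) [NeZero N]

/-! ### Naturality of `evalAt` -/

theorem coeffMap_evalAt {A B : Type*} [CommRing A] [CommRing B] (φ : A →+* B)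
    (y : LaurentSeries A) (g : ℤ[X]) :
    coeffMap φ (evalAt y g) = evalAt (coeffMap φ y) g := by
  have h : (coeffMap φ).comp (evalAt y) = evalAt (coeffMap φ y) := by
    apply Polynomial.ringHom_ext
    · intro a
      simp
    · simp
  exact RingHom.congr_fun h g

theorem evalAt_jq_rat (g : ℤ[X]) :
    evalAt (jqModC ℚ) g = incl ℓ (evalAt (jqModC ↥(GaloisRep.ratLocalizedAt ℓ)) g) := by
  rw [incl, coeffMap_evalAt, coeffMap_jqModC]

theorem redL_evalAt_jq (g : ℤ[X]) :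
    redL ℓ (evalAt (jqModC ↥(GaloisRep.ratLocalizedAt ℓ)) g) = evalAt (jqModC (ZMod ℓ)) g := by
  rw [redL, coeffMap_evalAt, coeffMap_jqModC]

theorem evalAt_eq_eval₂_C {A : Type*} [CommRing A] (y : LaurentSeries A) (g : ℤ[X]) :
    evalAt y g = (g.map (Int.castRingHom A)).eval₂ (HahnSeries.C (Γ := ℤ) (R := A)) y := by
  have h : (evalAt y) = (Polynomial.eval₂RingHom (HahnSeries.C (Γ := ℤ) (R := A)) y).comp
      (Polynomial.mapRingHom (Int.castRingHom A)) := by
    apply Polynomial.ringHom_ext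
    · intro a
      simp
    · simp
  exact RingHom.congr_fun h g

theorem aeval_eq_eval₂_C {k : Type*} [Field k] (y : LaurentSeries k) (f : k[X]) :
    Polynomial.aeval y f = f.eval₂ (HahnSeries.C (Γ := ℤ) (R := k)) y := by
  have h : (Polynomial.aeval (R := k) y).toRingHom =
      (Polynomial.eval₂RingHom (HahnSeries.C (Γ := ℤ) (R := k)) y) := by
    apply Polynomial.ringHom_ext
    · intro a
      simp only [AlgHom.toRingHom_eq_coe, RingHom.coe_coe, Polynomial.aeval_C,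
        Polynomial.coe_eval₂RingHom, Polynomial.eval₂_C]
      exact algebraMap_laurentSeries_eq_single k a
    · simp
  exact RingHom.congr_fun h f

theorem coeffMap_intCast_rat (y : LaurentSeries ℤ) :
    coeffMap (Int.castRingHom ℚ) y = incl ℓ (coeffMap (intToZl ℓ) y) := by
  rw [incl, coeffMap_coeffMap]
  exact coeffMap_congr (RingHom.ext_int _ _) y

theorem redL_coeffMap_intCast (y : LaurentSeries ℤ) :
    redL ℓ (coeffMap (intToZl ℓ) y) = coeffMap (Int.castRingHom (ZMod ℓ)) y := by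
  rw [redL, coeffMap_coeffMap]
  exact coeffMap_congr (RingHom.ext_int _ _) y


/-! ### Reducing an equation in `ℚ((q))` modulo `ℓ` -/

theorem red_eq_of_eq (y0 : gaussRing ℓ) (G : LaurentSeries ↥(GaloisRep.ratLocalizedAt ℓ))
    {m : ℕ} (Fs Ys : Fin m → LaurentSeries ↥(GaloisRep.ratLocalizedAt ℓ))
    (h : incl ℓ G * (y0 : LaurentSeries ℚ) = ∑ i, incl ℓ (Fs i) * incl ℓ (Ys i)) :
    redL ℓ G * gaussRed ℓ y0 = ∑ i, redL ℓ (Fs i) * redL ℓ (Ys i) := by
  have h1 : (⟨incl ℓ G, incl_mem_gaussRing ℓ G⟩ : gaussRing ℓ) * y0 =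
      ⟨incl ℓ (∑ i, Fs i * Ys i), incl_mem_gaussRing ℓ _⟩ := by
    apply Subtype.ext
    rw [Subring.coe_mul]
    simp only [map_sum, map_mul]
    exact h
  have h2 := congrArg (gaussRed ℓ) h1
  rw [map_mul, gaussRed_incl, gaussRed_incl, map_sum] at h2
  simpa only [map_mul] using h2

theorem evalAt_C_ell_zmod (y : LaurentSeries (ZMod ℓ)) : evalAt y (C (ℓ : ℤ)) = 0 := by
  rw [evalAt_eq_eval₂_C, Polynomial.map_C, Polynomial.eval₂_C]
  have : (Int.castRingHom (ZMod ℓ)) (ℓ : ℤ) = 0 := by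
    simp
  rw [this, map_zero]

theorem evalAt_eq_aeval_zmod (y : LaurentSeries (ZMod ℓ)) (g : ℤ[X]) :
    evalAt y g = Polynomial.aeval y (g.map (Int.castRingHom (ZMod ℓ))) := by
  rw [evalAt_eq_eval₂_C, aeval_eq_eval₂_C]

variable {ℓ N}

/-- **Normalisation.**  Using independence mod `ℓ`, a common factor `ℓ^k` of the denominator can
be cancelled from the whole relation. -/
theorem exists_normalized_relation {n : ℕ} (y : Fin n → LaurentSeries ℤ)
    (hB3 : ∀ f : Fin n → Polynomial (ZMod ℓ),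
        ∑ i, Polynomial.aeval (jqModC (ZMod ℓ)) (f i) *
          coeffMap (Int.castRingHom (ZMod ℓ)) (y i) = 0 → ∀ i, f i = 0)
    (y0 : gaussRing ℓ) :
    ∀ (k : ℕ) (g' : ℤ[X]) (f : Fin n → ℤ[X]),
      evalAt (jqModC ℚ) (C (ℓ : ℤ) ^ k * g') * (y0 : LaurentSeries ℚ) =
        ∑ i, evalAt (jqModC ℚ) (f i) * coeffMap (Int.castRingHom ℚ) (y i) →
      ∃ f' : Fin n → ℤ[X], evalAt (jqModC ℚ) g' * (y0 : LaurentSeries ℚ) =
        ∑ i, evalAt (jqModC ℚ) (f' i) * coeffMap (Int.castRingHom ℚ) (y i) := by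
  intro k
  induction k with
  | zero =>
    intro g' f h
    exact ⟨f, by simpa using h⟩
  | succ k ih =>
    intro g' f h
    -- reduce the relation mod ℓ
    have h' := h
    simp only [evalAt_jq_rat ℓ, coeffMap_intCast_rat ℓ] at h'
    have hred := red_eq_of_eq ℓ y0 _ _ _ h'
    simp only [redL_evalAt_jq, redL_coeffMap_intCast] at hred
    have hzero : evalAt (jqModC (ZMod ℓ)) (C (ℓ : ℤ) ^ (k + 1) * g') = 0 := by
      rw [map_mul, map_pow, evalAt_C_ell_zmod, zero_pow (Nat.succ_ne_zero k), zero_mul]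
    rw [hzero, zero_mul] at hred
    simp only [evalAt_eq_aeval_zmod] at hred
    have hf := hB3 (fun i => (f i).map (Int.castRingHom (ZMod ℓ))) hred.symm
    choose f1 hf1 using fun i => dvd_of_map_intCast_eq_zero ℓ (f i) (hf i)
    apply ih g' f1
    have hℓ := ellQ_ne_zero ℓ
    have hC : evalAt (jqModC ℚ) (C (ℓ : ℤ)) = (ℓ : LaurentSeries ℚ) := by
      simp
    apply mul_left_cancel₀ hℓ
    have e1 : (ℓ : LaurentSeries ℚ) * (evalAt (jqModC ℚ) (C (ℓ : ℤ) ^ k * g') *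
        (y0 : LaurentSeries ℚ)) =
        evalAt (jqModC ℚ) (C (ℓ : ℤ) ^ (k + 1) * g') * (y0 : LaurentSeries ℚ) := by
      rw [← hC, ← mul_assoc, ← map_mul]
      congr 2
      ring
    rw [e1, h, Finset.mul_sum]
    refine Finset.sum_congr rfl fun i _ => ?_
    rw [hf1 i, map_mul, hC]
    ring


/-! ### Integrality over `R[j]` -/

variable (ℓ N)

/-- `j` as an element of `F ∩ V`. -/
def jW : gaussSub ℓ N := ⟨jFull N, jFull_mem_gaussSub ℓ N⟩

/-- `j⁻¹` as an element of `F ∩ V`. -/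
def jInvW : gaussSub ℓ N := ⟨(jFull N)⁻¹, jFull_inv_mem_gaussSub ℓ N⟩

/-- The subring `R[j] ⊂ F`. -/
abbrev adjJ : Subalgebra ↥(GaloisRep.ratLocalizedAt ℓ) ↥(modularFunctionFieldFull N) :=
  Algebra.adjoin ↥(GaloisRep.ratLocalizedAt ℓ) {jFull N}

/-- `j` as an element of `R[j]`. -/
def jAdj : adjJ ℓ N := ⟨jFull N, Algebra.subset_adjoin rfl⟩

/-- Evaluation `ℤ[X] → R[j]`. -/
def psiJ : ℤ[X] →+* adjJ ℓ N :=
  (Polynomial.aeval (R := ↥(GaloisRep.ratLocalizedAt ℓ)) (jAdj ℓ N)).toRingHom.comp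
    (Polynomial.mapRingHom (intToZl ℓ))

/-- The structure map `R[j] → ℚ((q))`. -/
def phiJ : adjJ ℓ N →+* LaurentSeries ℚ :=
  (fullSubtype N).comp (algebraMap (adjJ ℓ N) ↥(modularFunctionFieldFull N))

theorem phiJ_apply (u : adjJ ℓ N) :
    phiJ ℓ N u = ((u : ↥(modularFunctionFieldFull N)) : LaurentSeries ℚ) := rfl

theorem phiJ_comp_psiJ : (phiJ ℓ N).comp (psiJ ℓ N) = evalAt (jqModC ℚ) := by
  apply Polynomial.ringHom_ext
  · intro a
    simp
  · simp only [RingHom.comp_apply, psiJ, Polynomial.coe_mapRingHom, Polynomial.map_X,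
      AlgHom.toRingHom_eq_coe, RingHom.coe_coe, Polynomial.aeval_X]
    rfl

theorem phiJ_psiJ (g : ℤ[X]) : phiJ ℓ N (psiJ ℓ N g) = evalAt (jqModC ℚ) g :=
  RingHom.congr_fun (phiJ_comp_psiJ ℓ N) g

theorem isIntegralElem_phiJ_of_root (y : LaurentSeries ℤ) (c : ℕ) (hc : ¬ ℓ ∣ c)
    (P : Polynomial (Polynomial ℤ)) (hlead : P.leadingCoeff = Polynomial.C (c : ℤ))
    (hroot : P.eval₂ (evalAt (jqModC ℤ)) y = 0) :
    (phiJ ℓ N).IsIntegralElem (coeffMap (Int.castRingHom ℚ) y) := by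
  -- transport the relation to `ℚ((q))`
  have h1 : P.eval₂ (evalAt (jqModC ℚ)) (coeffMap (Int.castRingHom ℚ) y) = 0 := by
    have := congrArg (coeffMap (Int.castRingHom ℚ)) hroot
    rw [Polynomial.hom_eval₂, map_zero] at this
    have hcomp : (coeffMap (Int.castRingHom ℚ)).comp (evalAt (jqModC ℤ)) =
        evalAt (jqModC ℚ) := by
      apply Polynomial.ringHom_ext
      · intro a
        simp
      · simp only [RingHom.comp_apply]
        rw [coeffMap_evalAt, coeffMap_jqModC]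
    rwa [hcomp] at this
  rw [← phiJ_comp_psiJ ℓ N, ← Polynomial.eval₂_map] at h1
  -- the leading coefficient is a unit
  obtain ⟨u, hu⟩ := (isUnit_natCast_of_not_dvd ℓ hc).exists_right_inv
  have hcP : psiJ ℓ N (Polynomial.C (c : ℤ)) = ((c : ℕ) : adjJ ℓ N) := by
    simp [psiJ]
  have hc0 : ((c : ℕ) : adjJ ℓ N) ≠ 0 := by
    intro h
    have h2 := congrArg (algebraMap ↥(GaloisRep.ratLocalizedAt ℓ) (adjJ ℓ N)) hu
    rw [map_mul, map_natCast, h, zero_mul, map_one] at h2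
    exact zero_ne_one h2
  have hlc : (P.map (psiJ ℓ N)).leadingCoeff = ((c : ℕ) : adjJ ℓ N) := by
    rw [Polynomial.leadingCoeff_map_of_leadingCoeff_ne_zero, hlead, hcP]
    rw [hlead, hcP]
    exact hc0
  refine ⟨Polynomial.C (algebraMap ↥(GaloisRep.ratLocalizedAt ℓ) (adjJ ℓ N) u) *
    P.map (psiJ ℓ N), ?_, ?_⟩
  · apply Polynomial.monic_C_mul_of_mul_leadingCoeff_eq_one
    rw [hlc, ← map_natCast (algebraMap ↥(GaloisRep.ratLocalizedAt ℓ) (adjJ ℓ N)), ← map_mul,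
      mul_comm, hu, map_one]
  · rw [Polynomial.eval₂_mul, h1, mul_zero]

/-- An element of `F` whose image in `ℚ((q))` is integral over `R[j]` is integral over `R[j]`. -/
theorem isIntegral_of_isIntegralElem_phiJ (z : ↥(modularFunctionFieldFull N))
    (hz : (phiJ ℓ N).IsIntegralElem (z : LaurentSeries ℚ)) : IsIntegral (adjJ ℓ N) z := by
  obtain ⟨p, hp, hroot⟩ := hz
  refine ⟨p, hp, ?_⟩
  have h1 : fullSubtype N (Polynomial.eval₂ (algebraMap (adjJ ℓ N) ↥(modularFunctionFieldFull N))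
      z p) = 0 := by
    rw [Polynomial.hom_eval₂]
    exact hroot
  exact Subtype.val_injective h1


/-! ### Reductions of `j` and `j⁻¹` -/

theorem gaussSubRed_jW : gaussSubRed ℓ N (jW ℓ N) = jqModC (ZMod ℓ) := by
  show gaussRed ℓ (gaussSubTo ℓ N (jW ℓ N)) = _
  rw [gaussRed_eq ℓ _ (jqModC ↥(GaloisRep.ratLocalizedAt ℓ)) 1 (by simp)
    (by rw [map_one, mul_one, ← jq_eq_incl]; rfl)]
  rw [map_one, div_one, redL_jq]

theorem jW_mul_jInvW : jW ℓ N * jInvW ℓ N = 1 := by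
  apply Subtype.ext
  show jFull N * (jFull N)⁻¹ = 1
  exact mul_inv_cancel₀ (jFull_ne_zero N)

theorem gaussSubRed_jInvW : gaussSubRed ℓ N (jInvW ℓ N) = (jqModC (ZMod ℓ))⁻¹ := by
  have h := congrArg (gaussSubRed ℓ N) (jW_mul_jInvW ℓ N)
  rw [map_mul, map_one, gaussSubRed_jW] at h
  exact eq_inv_of_mul_eq_one_right h

theorem gaussSubRed_jW_order : (gaussSubRed ℓ N (jW ℓ N)).order ≠ 0 := by
  rw [gaussSubRed_jW]
  exact jqModC_order_ne_zero (ZMod ℓ)

theorem gaussSubRed_jInvW_order : (gaussSubRed ℓ N (jInvW ℓ N)).order ≠ 0 := by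
  rw [gaussSubRed_jInvW]
  exact jqModC_inv_order_ne_zero (ZMod ℓ)

theorem coe_jW_order :
    (((jW ℓ N : gaussSub ℓ N) : ↥(modularFunctionFieldFull N)) : LaurentSeries ℚ).order ≠ 0 :=
  jqModC_order_ne_zero ℚ

theorem coe_jInvW_order :
    (((jInvW ℓ N : gaussSub ℓ N) : ↥(modularFunctionFieldFull N)) : LaurentSeries ℚ).order ≠ 0 := by
  have h : (((jInvW ℓ N : gaussSub ℓ N) : ↥(modularFunctionFieldFull N)) : LaurentSeries ℚ) =
      (jqModC ℚ)⁻¹ := by
    show (((jFull N)⁻¹ : ↥(modularFunctionFieldFull N)) : LaurentSeries ℚ) = _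
    push_cast
    rfl
  rw [h]
  exact jqModC_inv_order_ne_zero ℚ

/-! ### Part C: the denominator statement (HB) from `BasisData` -/

variable {ℓ N}

theorem inclusion_psiJ (g : ℤ[X]) :
    (Subalgebra.inclusion (adjoin_le_gaussSub (jW ℓ N)) (psiJ ℓ N g) : gaussSub ℓ N) =
      evW (jW ℓ N) (g.map (intToZl ℓ)) := by
  apply Subtype.ext
  rw [coe_evW]
  show ((psiJ ℓ N g : adjJ ℓ N) : ↥(modularFunctionFieldFull N)) = _
  simp only [psiJ, RingHom.comp_apply, Polynomial.coe_mapRingHom, AlgHom.toRingHom_eq_coe,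
    RingHom.coe_coe]
  exact Polynomial.aeval_subalgebra_coe _ (adjJ ℓ N) (jAdj ℓ N)

theorem adjoinRed_psiJ_ne_zero (g : ℤ[X]) (hg : g.map (Int.castRingHom (ZMod ℓ)) ≠ 0) :
    adjoinRed (jW ℓ N) (psiJ ℓ N g) ≠ 0 := by
  show gaussSubRed ℓ N (Subalgebra.inclusion (adjoin_le_gaussSub (jW ℓ N)) (psiJ ℓ N g)) ≠ 0
  rw [inclusion_psiJ, gaussSubRed_evW, Polynomial.map_map, resZl_comp_intToZl]
  intro h
  exact hg (eq_zero_of_eval₂_C_eq_zero _ (gaussSubRed_jW_order ℓ N) _ h)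

/-- **(HB)** Every element of `F ∩ V` becomes integral over `R[j]` after multiplication by an
element of `R[j]` with nonzero reduction. -/
theorem exists_denominator_of_basisData (core : BasisData N ℓ)
    (y0 : ↥(modularFunctionFieldFull N)) (hy0 : y0 ∈ gaussSub ℓ N) :
    ∃ s : adjJ ℓ N, adjoinRed (jW ℓ N) s ≠ 0 ∧
      IsIntegral (adjJ ℓ N) ((s : ↥(modularFunctionFieldFull N)) * y0) := by
  obtain ⟨n, y, hB1, hB2, hB3⟩ := core.exists_basis
  obtain ⟨g, f, hg0, hrel⟩ := hB2 (y0 : LaurentSeries ℚ) y0.2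
  obtain ⟨k, g', rfl, hg'⟩ := exists_primitive_intPoly ℓ g hg0
  obtain ⟨f', hrel'⟩ := exists_normalized_relation y hB3 ⟨(y0 : LaurentSeries ℚ), hy0⟩ k g' f hrel
  refine ⟨psiJ ℓ N g', adjoinRed_psiJ_ne_zero g' hg', ?_⟩
  apply isIntegral_of_isIntegralElem_phiJ
  have hcoe : (((psiJ ℓ N g' : adjJ ℓ N) : ↥(modularFunctionFieldFull N)) * y0 :
      ↥(modularFunctionFieldFull N)) =
      ((∑ i, evalAt (jqModC ℚ) (f' i) * coeffMap (Int.castRingHom ℚ) (y i) :
        LaurentSeries ℚ)) := by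
    rw [← hrel', ← phiJ_psiJ ℓ N g']
    rfl
  rw [hcoe]
  refine Finset.sum_induction _ (phiJ ℓ N).IsIntegralElem
    (fun a b ha hb => RingHom.IsIntegralElem.add _ ha hb) (phiJ ℓ N).isIntegralElem_zero ?_
  intro i _
  apply RingHom.IsIntegralElem.mul
  · rw [← phiJ_psiJ ℓ N (f' i)]
    exact (phiJ ℓ N).isIntegralElem_map
  · obtain ⟨c, P, hc, hlead, hroot⟩ := hB1 i
    exact isIntegralElem_phiJ_of_root ℓ N (y i) c hc P hlead hroot

end Fermat.Agent.S28.H806
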