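import Mathlib
import Fermat.Agent.S28.Basis
import Fermat.Agent.S28.Spine
import Fermat.Agent.S28.H806.Denominator

set_option autoImplicit false
set_option linter.unusedSectionVars false
set_option linter.style.haveILetI false

noncomputable section

namespace Fermat.Agent.S28.H806

open Polynomial ModularCurve ModularCurve.IgusaScheme Fermat.Agent.S28

variable {ℓ : ℕ} [Fact ℓ.Prime] {N : ℕ} [NeZero N]

/-- If the reduction of `x ∈ F ∩ V` vanishes, then `x = ℓ · y₀` with `y₀ ∈ F ∩ V`. -/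
theorem exists_eq_ell_mul_of_gaussSubRed_eq_zero (x : gaussSub ℓ N)
    (hx : gaussSubRed ℓ N x = 0) :
    ∃ y0 : ↥(modularFunctionFieldFull N), y0 ∈ gaussSub ℓ N ∧
      (x : ↥(modularFunctionFieldFull N)) = (ℓ : ↥(modularFunctionFieldFull N)) * y0 := by
  obtain ⟨yV, hyV⟩ := (gaussRed_eq_zero_iff ℓ (gaussSubTo ℓ N x)).mp hx
  have hℓ := ellQ_ne_zero ℓ
  have hℓF : (ℓ : ↥(modularFunctionFieldFull N)) ≠ 0 := by
    intro h
    apply hℓ
    have := congrArg (fun z : ↥(modularFunctionFieldFull N) => (z : LaurentSeries ℚ)) h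
    simpa using this
  have hcoe : ((x : ↥(modularFunctionFieldFull N)) : LaurentSeries ℚ) =
      (ℓ : LaurentSeries ℚ) * (yV : LaurentSeries ℚ) := by
    have := congrArg (fun z : gaussRing ℓ => (z : LaurentSeries ℚ)) hyV
    simp only [Subring.coe_mul, SubringClass.coe_natCast] at this
    exact this
  refine ⟨(x : ↥(modularFunctionFieldFull N)) * (ℓ : ↥(modularFunctionFieldFull N))⁻¹, ?_, ?_⟩
  · rw [mem_gaussSub_iff]
    have : (((x : ↥(modularFunctionFieldFull N)) * (ℓ : ↥(modularFunctionFieldFull N))⁻¹ :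
        ↥(modularFunctionFieldFull N)) : LaurentSeries ℚ) = (yV : LaurentSeries ℚ) := by
      push_cast
      rw [hcoe]
      field_simp
    rw [this]
    exact yV.2
  · field_simp

/-- **Kernel, finite chart.** -/
theorem kernel_fin (core : BasisData N ℓ) (x : chartAlgFin N ℓ)
    (hx : chartRed ℓ N {jFull N} (isChartSet_fin N) x = 0) :
    ∃ y : chartAlgFin N ℓ, x = ((ℓ : ℕ) : chartAlgFin N ℓ) * y := by
  obtain ⟨y0, hy0, hxy⟩ := exists_eq_ell_mul_of_gaussSubRed_eq_zero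
    (Subalgebra.inclusion (isChartSet_fin N).le_gaussSub x) hx
  obtain ⟨s, hs, hint⟩ := exists_denominator_of_basisData core y0 hy0
  have hx' : IsIntegral (Algebra.adjoin ↥(GaloisRep.ratLocalizedAt ℓ) {jFull N})
      ((ℓ : ↥(modularFunctionFieldFull N)) * y0) := by
    have := (mem_chartAlg_iff N ℓ).mp x.2
    rw [← hxy]
    exact this
  have hy := isIntegral_adjoin_of_mul (jW ℓ N) (gaussSubRed_jW_order ℓ N) (coe_jW_order ℓ N)
    y0 hx' s hs hint
  refine ⟨⟨y0, (mem_chartAlg_iff N ℓ).mpr hy⟩, Subtype.ext ?_⟩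
  push_cast
  exact hxy


/-- **(HB′)** transfer of the denominator statement from `R[j]` to `R[j⁻¹]`. -/
theorem exists_denominator_inv (y0 : ↥(modularFunctionFieldFull N))
    (s : adjJ ℓ N) (hs : adjoinRed (jW ℓ N) s ≠ 0)
    (hint : IsIntegral (adjJ ℓ N) ((s : ↥(modularFunctionFieldFull N)) * y0)) :
    ∃ s' : Algebra.adjoin ↥(GaloisRep.ratLocalizedAt ℓ)
        {((jInvW ℓ N : gaussSub ℓ N) : ↥(modularFunctionFieldFull N))},
      adjoinRed (jInvW ℓ N) s' ≠ 0 ∧
      IsIntegral (Algebra.adjoin ↥(GaloisRep.ratLocalizedAt ℓ)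
        {((jInvW ℓ N : gaussSub ℓ N) : ↥(modularFunctionFieldFull N))})
        ((s' : ↥(modularFunctionFieldFull N)) * y0) := by
  have hj0 : (jFull N)⁻¹ ≠ 0 := inv_ne_zero (jFull_ne_zero N)
  have hsub : ({jFull N} : Set ↥(modularFunctionFieldFull N)) ⊆
      insert ((jFull N)⁻¹)⁻¹ {(jFull N)⁻¹} := by
    rw [inv_inv]
    exact Set.singleton_subset_iff.mpr (Set.mem_insert _ _)
  -- (1) clear the poles of `s`
  obtain ⟨m, hm⟩ := exists_pow_mul_mem_adjoin (N := N) (ℓ := ℓ) (S := {(jFull N)⁻¹})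
    (s := (jFull N)⁻¹) (Set.mem_singleton _) hj0 (x := (s : ↥(modularFunctionFieldFull N)))
    (Algebra.adjoin_mono hsub s.2)
  -- (2) clear the poles of `s * y0`
  have hmem : (s : ↥(modularFunctionFieldFull N)) * y0 ∈ chartAlg N ℓ {jFull N} :=
    (mem_chartAlg_iff N ℓ).mpr hint
  obtain ⟨n, hn⟩ := exists_pow_mul_mem_chartAlg (N := N) (ℓ := ℓ) (S := {(jFull N)⁻¹})
    (s := (jFull N)⁻¹) (Set.mem_singleton _) hj0
    (x := (s : ↥(modularFunctionFieldFull N)) * y0) (chartAlg_mono N ℓ hsub hmem)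
  have hjmem : (jFull N)⁻¹ ∈ Algebra.adjoin ↥(GaloisRep.ratLocalizedAt ℓ)
      ({(jFull N)⁻¹} : Set ↥(modularFunctionFieldFull N)) := Algebra.subset_adjoin rfl
  have hs'mem : ((jFull N)⁻¹) ^ n * (((jFull N)⁻¹) ^ m * (s : ↥(modularFunctionFieldFull N))) ∈
      Algebra.adjoin ↥(GaloisRep.ratLocalizedAt ℓ)
        ({(jFull N)⁻¹} : Set ↥(modularFunctionFieldFull N)) :=
    mul_mem (pow_mem hjmem n) hm
  refine ⟨⟨_, hs'mem⟩, ?_, ?_⟩
  · -- nonzero reduction
    have hincl : (Subalgebra.inclusion (adjoin_le_gaussSub (jInvW ℓ N))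
        (⟨_, hs'mem⟩ : Algebra.adjoin ↥(GaloisRep.ratLocalizedAt ℓ)
          {((jInvW ℓ N : gaussSub ℓ N) : ↥(modularFunctionFieldFull N))}) : gaussSub ℓ N) =
        (jInvW ℓ N) ^ n * ((jInvW ℓ N) ^ m *
          (Subalgebra.inclusion (adjoin_le_gaussSub (jW ℓ N)) s)) := by
      apply Subtype.ext
      rfl
    show gaussSubRed ℓ N (Subalgebra.inclusion (adjoin_le_gaussSub (jInvW ℓ N)) _) ≠ 0
    rw [hincl, map_mul, map_mul, map_pow, map_pow, gaussSubRed_jInvW]
    have hjne : (jqModC (ZMod ℓ))⁻¹ ≠ 0 := inv_ne_zero (jqModC_ne_zero' (ZMod ℓ))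
    exact mul_ne_zero (pow_ne_zero _ hjne) (mul_ne_zero (pow_ne_zero _ hjne) hs)
  · -- integrality over `R[j⁻¹]`
    have hjc : (jFull N)⁻¹ ∈ chartAlg N ℓ ({(jFull N)⁻¹} : Set ↥(modularFunctionFieldFull N)) :=
      subset_chartAlg N ℓ _ rfl
    have h1 : ((jFull N)⁻¹) ^ m * (((jFull N)⁻¹) ^ n *
        ((s : ↥(modularFunctionFieldFull N)) * y0)) ∈
        chartAlg N ℓ ({(jFull N)⁻¹} : Set ↥(modularFunctionFieldFull N)) :=
      mul_mem (pow_mem hjc m) hn
    have h2 : ((jFull N)⁻¹) ^ n * (((jFull N)⁻¹) ^ m * (s : ↥(modularFunctionFieldFull N))) * y0 =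
        ((jFull N)⁻¹) ^ m * (((jFull N)⁻¹) ^ n *
          ((s : ↥(modularFunctionFieldFull N)) * y0)) := by ring
    show IsIntegral (Algebra.adjoin ↥(GaloisRep.ratLocalizedAt ℓ)
      ({(jFull N)⁻¹} : Set ↥(modularFunctionFieldFull N)))
      (((jFull N)⁻¹) ^ n * (((jFull N)⁻¹) ^ m * (s : ↥(modularFunctionFieldFull N))) * y0)
    rw [h2]
    exact (mem_chartAlg_iff N ℓ).mp h1

/-- **Kernel, chart at infinity.** -/
theorem kernel_inf (core : BasisData N ℓ) (x : chartAlgInf N ℓ)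
    (hx : chartRed ℓ N {(jFull N)⁻¹} (isChartSet_inf N) x = 0) :
    ∃ y : chartAlgInf N ℓ, x = ((ℓ : ℕ) : chartAlgInf N ℓ) * y := by
  obtain ⟨y0, hy0, hxy⟩ := exists_eq_ell_mul_of_gaussSubRed_eq_zero
    (Subalgebra.inclusion (isChartSet_inf N).le_gaussSub x) hx
  obtain ⟨s, hs, hint⟩ := exists_denominator_of_basisData core y0 hy0
  obtain ⟨s', hs', hint'⟩ := exists_denominator_inv y0 s hs hint
  have hx' : IsIntegral (Algebra.adjoin ↥(GaloisRep.ratLocalizedAt ℓ)
      {((jInvW ℓ N : gaussSub ℓ N) : ↥(modularFunctionFieldFull N))})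
      ((ℓ : ↥(modularFunctionFieldFull N)) * y0) := by
    have := (mem_chartAlg_iff N ℓ).mp x.2
    rw [← hxy]
    exact this
  have hy := isIntegral_adjoin_of_mul (jInvW ℓ N) (gaussSubRed_jInvW_order ℓ N)
    (coe_jInvW_order ℓ N) y0 hx' s' hs' hint'
  refine ⟨⟨y0, (mem_chartAlg_iff N ℓ).mpr hy⟩, Subtype.ext ?_⟩
  push_cast
  exact hxy

/-- **[V]**: the valuation layer.  `BasisData` implies the chart reductions of the spine. -/
theorem chartReductions_of_basisData (core : BasisData N ℓ) : ChartReductions N ℓ where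
  fin := ⟨chartRed ℓ N {jFull N} (isChartSet_fin N), kernel_fin core⟩
  inf := ⟨chartRed ℓ N {(jFull N)⁻¹} (isChartSet_inf N), kernel_inf core⟩
  mid := ⟨chartRed ℓ N {jFull N, (jFull N)⁻¹} (isChartSet_mid N)⟩


/-- S28 from `BasisData` (via the spine on main). -/
theorem isIntegral_of_basisData (core : BasisData N ℓ)
    (K : Type) [Field K] [CharP K ℓ] [Algebra ↥(GaloisRep.ratLocalizedAt ℓ) K] :
    AlgebraicGeometry.IsIntegral ↑(CategoryTheory.Limits.pullback (igusaTo N ℓ)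
      (AlgebraicGeometry.Spec.map (CommRingCat.ofHom
        (algebraMap ↥(GaloisRep.ratLocalizedAt ℓ) K)))) :=
  isIntegral_of_chartReductions N ℓ (chartReductions_of_basisData core) K

end Fermat.Agent.S28.H806
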