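import Mathlib
import Fermat.Agent.S28.H806.GaussRing

set_option autoImplicit false
set_option linter.unusedSectionVars false
set_option linter.style.haveILetI false

noncomputable section

namespace Fermat.Agent.S28.H806

open ModularCurve TensorProduct

section Abstract

variable {R A k K : Type*} [CommRing R] [CommRing A] [Algebra R A] [Field k] [Field K]
  [Algebra R K] [Algebra k K]

/-- The `R`-algebra structure on `K((q))` used for the comparison map. -/
@[reducible] def laurentAlg (R K : Type*) [CommRing R] [Field K] [Algebra R K] :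
    Algebra R (LaurentSeries K) :=
  ((HahnSeries.C (Γ := ℤ) (R := K)).comp (algebraMap R K)).toAlgebra

/-- The comparison map `A ⊗[R] K → K((q))`, `a ⊗ c ↦ c · φ(a)`. -/
def tensorToLaurent (π : R →+* k) (hcomp : ∀ r, algebraMap R K r = algebraMap k K (π r))
    (φ : A →+* LaurentSeries k) (hφ : ∀ r, φ (algebraMap R A r) = HahnSeries.C (π r)) :
    letI := laurentAlg R K
    A ⊗[R] K →ₐ[R] LaurentSeries K :=
  letI := laurentAlg R K
  Algebra.TensorProduct.productMap
    ({ (coeffMap (algebraMap k K)).comp φ with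
        commutes' := fun r => by
          show coeffMap (algebraMap k K) (φ (algebraMap R A r)) = HahnSeries.C (algebraMap R K r)
          rw [hφ, hcomp]
          show coeffMap _ (HahnSeries.single 0 (π r)) = _
          rw [coeffMap_single]
          rfl } : A →ₐ[R] LaurentSeries K)
    ({ (HahnSeries.C (Γ := ℤ) (R := K)) with
        commutes' := fun r => rfl } : K →ₐ[R] LaurentSeries K)

theorem tensorToLaurent_tmul (π : R →+* k)
    (hcomp : ∀ r, algebraMap R K r = algebraMap k K (π r))
    (φ : A →+* LaurentSeries k) (hφ : ∀ r, φ (algebraMap R A r) = HahnSeries.C (π r))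
    (a : A) (c : K) :
    tensorToLaurent π hcomp φ hφ (a ⊗ₜ[R] c) =
      coeffMap (algebraMap k K) (φ a) * HahnSeries.C c := by
  letI := laurentAlg R K
  exact Algebra.TensorProduct.productMap_apply_tmul _ _ a c

/-- Every element of `A ⊗[R] K` is a finite sum `∑ aᵢ ⊗ bᵢ` over a `k`-basis `b` of `K`. -/
theorem exists_finsupp_eq_sum_tmul {ι : Type*} (b : Module.Basis ι k K) (π : R →+* k)
    (hπ : Function.Surjective π)
    (hcomp : ∀ r, algebraMap R K r = algebraMap k K (π r)) (z : A ⊗[R] K) :
    ∃ (s : Finset ι) (a : ι → A), z = ∑ i ∈ s, a i ⊗ₜ[R] b i := by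
  classical
  induction z using TensorProduct.induction_on with
  | zero => exact ⟨∅, fun _ => 0, by simp⟩
  | tmul a c =>
    choose σ hσ using hπ
    refine ⟨(b.repr c).support, fun i => σ (b.repr c i) • a, ?_⟩
    have hc : c = ∑ i ∈ (b.repr c).support, (b.repr c i) • b i := by
      conv_lhs => rw [← b.linearCombination_repr c]
      rw [Finsupp.linearCombination_apply, Finsupp.sum]
    conv_lhs => rw [hc]
    rw [TensorProduct.tmul_sum]
    refine Finset.sum_congr rfl fun i _ => ?_
    have h1 : (b.repr c i) • b i = σ (b.repr c i) • b i := by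
      rw [Algebra.smul_def, Algebra.smul_def, hcomp, hσ]
    rw [h1, TensorProduct.tmul_smul, TensorProduct.smul_tmul']
  | add z₁ z₂ h₁ h₂ =>
    obtain ⟨s₁, a₁, rfl⟩ := h₁
    obtain ⟨s₂, a₂, rfl⟩ := h₂
    refine ⟨s₁ ∪ s₂, fun i => (if i ∈ s₁ then a₁ i else 0) + (if i ∈ s₂ then a₂ i else 0), ?_⟩
    simp only [TensorProduct.add_tmul, Finset.sum_add_distrib]
    congr 1
    · rw [← Finset.sum_subset (Finset.subset_union_left (s₂ := s₂))]
      · exact Finset.sum_congr rfl fun i hi => by rw [if_pos hi]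
      · intro i _ hi
        rw [if_neg hi, TensorProduct.zero_tmul]
    · rw [← Finset.sum_subset (Finset.subset_union_right (s₁ := s₁))]
      · exact Finset.sum_congr rfl fun i hi => by rw [if_pos hi]
      · intro i _ hi
        rw [if_neg hi, TensorProduct.zero_tmul]

/-- **Kernel criterion.**  If `φ : A → k((q))` has kernel `t·A` with `t ↦ 0` in `K`, then the
comparison map `A ⊗[R] K → K((q))` is injective. -/
theorem tensorToLaurent_injective (π : R →+* k) (hπ : Function.Surjective π)
    (hcomp : ∀ r, algebraMap R K r = algebraMap k K (π r))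
    (φ : A →+* LaurentSeries k) (hφ : ∀ r, φ (algebraMap R A r) = HahnSeries.C (π r))
    (t : R) (ht : algebraMap R K t = 0)
    (hker : ∀ a : A, φ a = 0 → ∃ a' : A, a = t • a') :
    Function.Injective (tensorToLaurent (K := K) π hcomp φ hφ) := by
  classical
  rw [injective_iff_map_eq_zero]
  intro z hz
  let b := Module.Basis.ofVectorSpace k K
  obtain ⟨s, a, rfl⟩ := exists_finsupp_eq_sum_tmul (A := A) b π hπ hcomp z
  rw [map_sum] at hz
  simp only [tensorToLaurent_tmul] at hz
  have hcoef : ∀ n : ℤ, ∑ i ∈ s, ((φ (a i)).coeff n) • b i = 0 := by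
    intro n
    have h := congrArg (fun x : LaurentSeries K => x.coeff n) hz
    simp only [HahnSeries.coeff_zero] at h
    rw [← h]
    have hadd : (∑ i ∈ s, coeffMap (algebraMap k K) (φ (a i)) * HahnSeries.C (b i)).coeff n =
        ∑ i ∈ s, (coeffMap (algebraMap k K) (φ (a i)) * HahnSeries.C (b i)).coeff n :=
      map_sum (HahnSeries.coeff.addMonoidHom n) _ s
    show _ = (∑ i ∈ s, coeffMap (algebraMap k K) (φ (a i)) * HahnSeries.C (b i)).coeff n
    rw [hadd]
    refine Finset.sum_congr rfl fun i _ => ?_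
    rw [mul_comm, HahnSeries.C_mul_eq_smul, HahnSeries.coeff_smul, coeffMap_coeff,
      Algebra.smul_def, smul_eq_mul, mul_comm]
  have hzero : ∀ i ∈ s, φ (a i) = 0 := by
    intro i hi
    ext n
    have hli := b.linearIndependent
    rw [linearIndependent_iff'] at hli
    exact hli s (fun i => (φ (a i)).coeff n) (hcoef n) i hi
  refine Finset.sum_eq_zero fun i hi => ?_
  obtain ⟨a', ha'⟩ := hker (a i) (hzero i hi)
  rw [ha', ← TensorProduct.smul_tmul', ← TensorProduct.tmul_smul, Algebra.smul_def, ht, zero_mul,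
    TensorProduct.tmul_zero]

/-- **Kernel ⇒ domain**, abstract form. -/
theorem isDomain_tensor_of_ker (π : R →+* k) (hπ : Function.Surjective π)
    (hcomp : ∀ r, algebraMap R K r = algebraMap k K (π r))
    (φ : A →+* LaurentSeries k) (hφ : ∀ r, φ (algebraMap R A r) = HahnSeries.C (π r))
    (t : R) (ht : algebraMap R K t = 0)
    (hker : ∀ a : A, φ a = 0 → ∃ a' : A, a = t • a') :
    IsDomain (A ⊗[R] K) := by
  letI := laurentAlg R K
  exact Function.Injective.isDomain (tensorToLaurent (K := K) π hcomp φ hφ).toRingHom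
    (tensorToLaurent_injective π hπ hcomp φ hφ t ht hker)

end Abstract


/-! ### Application to the chart algebras -/

section Charts

open ModularCurve.IgusaScheme

variable (ℓ : ℕ) [Fact ℓ.Prime] (N : ℕ) [NeZero N]

/-- Ring homomorphisms out of `ℤ_(ℓ)` into a field of characteristic `ℓ` are unique. -/
theorem ringHom_ext_Zl_charP {K : Type*} [Field K] [CharP K ℓ]
    (f g : ↥(GaloisRep.ratLocalizedAt ℓ) →+* K) : f = g := by
  ext x
  have hden : ((x : ℚ).den : K) ≠ 0 := by
    intro h
    rw [CharP.cast_eq_zero_iff K ℓ] at h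
    have hx : (x : ℚ).den.Coprime ℓ := x.2
    have := Nat.Coprime.eq_one_of_dvd hx.symm h
    exact (Fact.out : ℓ.Prime).one_lt.ne' this
  have hx : (((x : ℚ).den : ℕ) : ↥(GaloisRep.ratLocalizedAt ℓ)) * x =
      (((x : ℚ).num : ℤ) : ↥(GaloisRep.ratLocalizedAt ℓ)) := by
    apply Subtype.ext
    push_cast
    exact Rat.den_mul_eq_num (x : ℚ)
  have hf := congrArg f hx
  have hg := congrArg g hx
  rw [map_mul, map_natCast, map_intCast] at hf hg
  apply mul_left_cancel₀ hden
  rw [hf, hg]

/-- The arithmetic input for a chart: the kernel of reduction is generated by `ℓ`. -/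
def KernelHyp (S : Set ↥(modularFunctionFieldFull N)) (hS : IsChartSet N S) : Prop :=
  ∀ x : chartAlg N ℓ S, chartRed ℓ N S hS x = 0 →
    ∃ y : chartAlg N ℓ S, x = (ℓ : ↥(GaloisRep.ratLocalizedAt ℓ)) • y

/-- **(V1) Kernel ⇒ domain** for a chart algebra. -/
theorem isDomain_chartAlg_tensor (S : Set ↥(modularFunctionFieldFull N)) (hS : IsChartSet N S)
    (hker : KernelHyp ℓ N S hS)
    (K : Type) [Field K] [CharP K ℓ] [Algebra ↥(GaloisRep.ratLocalizedAt ℓ) K] :
    IsDomain ((chartAlg N ℓ S) ⊗[↥(GaloisRep.ratLocalizedAt ℓ)] K) := by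
  letI : Algebra (ZMod ℓ) K := ZMod.algebra K ℓ
  refine isDomain_tensor_of_ker (k := ZMod ℓ) (resZl ℓ) (resZl_surjective ℓ) ?_
    (chartRed ℓ N S hS) (chartRed_algebraMap ℓ N S hS) (ℓ : ↥(GaloisRep.ratLocalizedAt ℓ)) ?_ hker
  · intro r
    exact RingHom.congr_fun (ringHom_ext_Zl_charP ℓ
      (algebraMap ↥(GaloisRep.ratLocalizedAt ℓ) K)
      ((algebraMap (ZMod ℓ) K).comp (resZl ℓ))) r
  · rw [map_natCast]
    exact CharP.cast_eq_zero K ℓ

/-- **(V1) Kernel ⇒ domain**, other tensor order. -/
theorem isDomain_tensor_chartAlg (S : Set ↥(modularFunctionFieldFull N)) (hS : IsChartSet N S)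
    (hker : KernelHyp ℓ N S hS)
    (K : Type) [Field K] [CharP K ℓ] [Algebra ↥(GaloisRep.ratLocalizedAt ℓ) K] :
    IsDomain (K ⊗[↥(GaloisRep.ratLocalizedAt ℓ)] (chartAlg N ℓ S)) := by
  haveI := isDomain_chartAlg_tensor ℓ N S hS hker K
  exact (Algebra.TensorProduct.comm ↥(GaloisRep.ratLocalizedAt ℓ) K
    (chartAlg N ℓ S)).toMulEquiv.isDomain

end Charts

end Fermat.Agent.S28.H806
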